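import Fermat.Agent.SemiSt.Model

/-!
# Coefficientwise action on modular function fields
-/

set_option autoImplicit false
set_option linter.style.haveILetI false
set_option linter.unusedSectionVars false

noncomputable section

namespace Fermat.Agent.SemiSt

open ModularCurve Polynomial IntermediateField Fermat.Agent.ModPoly Fermat.Agent.Red
  Fermat.Agent.RedMod Fermat.Agent.Cusp

section Act

variable {K K' : Type*} [Field K] [Field K'] {N : ℕ}

theorem coeffMap_Jc_one (σ : K →+* K') (m : ℕ+) :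
    coeffMap σ (Jc 1 m : LaurentSeries K) = (Jc 1 m : LaurentSeries K') := by
  haveI : NeZero (m : ℕ) := ⟨m.ne_zero⟩
  rw [Jc_one_eq, coeffMap_qExpand, coeffMap_jqModC, ← Jc_one_eq]

theorem coeffMap_mem_FF (σ : K →+* K') {x : LaurentSeries K} (hx : x ∈ FF K N) :
    coeffMap σ x ∈ FF K' N := by
  rw [FF_eq_adjoin] at hx
  induction hx using IntermediateField.adjoin_induction with
  | mem x hx =>
    obtain ⟨m, hm, rfl⟩ := hx
    rw [coeffMap_Jc_one]
    exact Jc_one_mem hm
  | algebraMap x =>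
    rw [algebraMap_eq_C, coeffMap_C, ← algebraMap_eq_C]
    exact (FF K' N).algebraMap_mem _
  | add x y _ _ hx hy => rw [map_add]; exact add_mem hx hy
  | inv x _ hx => rw [map_inv₀]; exact inv_mem hx
  | mul x y _ _ hx hy => rw [map_mul]; exact mul_mem hx hy

variable (N) in
/-- the coefficientwise action of a field homomorphism -/
def actH (σ : K →+* K') : FF K N →+* FF K' N where
  toFun x := ⟨coeffMap σ x.1, coeffMap_mem_FF σ x.2⟩
  map_one' := Subtype.ext (map_one (coeffMap σ))
  map_zero' := Subtype.ext (map_zero (coeffMap σ))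
  map_mul' x y := Subtype.ext (map_mul (coeffMap σ) x.1 y.1)
  map_add' x y := Subtype.ext (map_add (coeffMap σ) x.1 y.1)

theorem coe_actH (σ : K →+* K') (x : FF K N) :
    (actH N σ x : LaurentSeries K') = coeffMap σ (x : LaurentSeries K) := rfl

variable (N) in
/-- the coefficientwise action of a field isomorphism -/
def act (σ : K ≃+* K') : FF K N ≃+* FF K' N where
  __ := actH N (σ : K →+* K')
  invFun := actH N (σ.symm : K' →+* K)
  left_inv x := by
    apply Subtype.ext
    change coeffMap (σ.symm : K' →+* K) (coeffMap (σ : K →+* K') x.1) = x.1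
    rw [coeffMap_coeffMap]
    have : ((σ.symm : K' →+* K).comp (σ : K →+* K')) = RingHom.id K := by
      ext x; simp
    rw [this]
    ext n
    rfl
  right_inv x := by
    apply Subtype.ext
    change coeffMap (σ : K →+* K') (coeffMap (σ.symm : K' →+* K) x.1) = x.1
    rw [coeffMap_coeffMap]
    have : ((σ : K →+* K').comp (σ.symm : K' →+* K)) = RingHom.id K' := by
      ext x; simp
    rw [this]
    ext n
    rfl

theorem coe_act (σ : K ≃+* K') (x : FF K N) :
    (act N σ x : LaurentSeries K') = coeffMap (σ : K →+* K') (x : LaurentSeries K) := rfl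

theorem coe_act_symm (σ : K ≃+* K') (x : FF K' N) :
    ((act N σ).symm x : LaurentSeries K) = coeffMap (σ.symm : K' →+* K) (x : LaurentSeries K') := rfl

theorem act_jm (σ : K ≃+* K') {m : ℕ+} (hm : (m : ℕ) ∣ N) :
    act N σ (jm K m hm) = jm K' m hm := Subtype.ext (coeffMap_Jc_one _ m)

theorem act_symm_jm (σ : K ≃+* K') {m : ℕ+} (hm : (m : ℕ) ∣ N) :
    (act N σ).symm (jm K' m hm) = jm K m hm := Subtype.ext (coeffMap_Jc_one _ m)

theorem act_jF (σ : K ≃+* K') : act N σ (jF' K N) = jF' K' N := act_jm σ _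

theorem act_algebraMap (σ : K ≃+* K') (c : K) :
    act N σ (algebraMap K (FF K N) c) = algebraMap K' (FF K' N) (σ c) := by
  apply Subtype.ext
  rw [coe_act]
  change coeffMap (σ : K →+* K') (algebraMap K (LaurentSeries K) c) =
    algebraMap K' (LaurentSeries K') (σ c)
  rw [algebraMap_eq_C, coeffMap_C, ← algebraMap_eq_C]
  rfl

theorem act_symm_algebraMap (σ : K ≃+* K') (c : K') :
    (act N σ).symm (algebraMap K' (FF K' N) c) = algebraMap K (FF K N) (σ.symm c) := by
  rw [RingEquiv.symm_apply_eq, act_algebraMap, RingEquiv.apply_symm_apply]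

theorem act_incl {M : ℕ} (h : N ∣ M) (σ : K ≃+* K') (x : FF K N) :
    act M σ (incl K h x) = incl K' h (act N σ x) := by
  apply Subtype.ext
  rw [coe_act, coe_incl, coe_incl, coe_act]

theorem act_qe {Q M : ℕ} [NeZero Q] [NeZero M] (σ : K ≃+* K') (x : FF K M) :
    act (Q * M) σ (qe K Q M x) = qe K' Q M (act M σ x) := by
  apply Subtype.ext
  rw [coe_act, coe_qe, coe_qe, coe_act, coeffMap_qExpand]

/-- conjugating algebra homomorphisms by the coefficientwise action -/
def conjHom {N' : ℕ} (σ : K ≃+* K') (f : FF K' N →ₐ[K'] FF K' N') : FF K N →ₐ[K] FF K N' where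
  __ := ((act N' σ).symm.toRingHom.comp f.toRingHom).comp (act N σ).toRingHom
  commutes' c := by
    change (act N' σ).symm (f (act N σ (algebraMap K (FF K N) c))) = algebraMap K (FF K N') c
    rw [act_algebraMap, AlgHom.commutes, act_symm_algebraMap, RingEquiv.symm_apply_apply]

theorem conjHom_apply {N' : ℕ} (σ : K ≃+* K') (f : FF K' N →ₐ[K'] FF K' N') (x : FF K N) :
    conjHom σ f x = (act N' σ).symm (f (act N σ x)) := rfl

/-- the coefficientwise action commutes with the Atkin-Lehner involutions -/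
theorem act_wq [IsAlgClosed K] [IsAlgClosed K'] {Q M : ℕ} [NeZero Q] [NeZero M]
    (hN : ((Q * M : ℕ) : K) ≠ 0) (hN' : ((Q * M : ℕ) : K') ≠ 0) (hco : Q.Coprime M)
    (σ : K ≃+* K') (x : FF K (Q * M)) :
    act (Q * M) σ (wq hN hco x) = wq hN' hco (act (Q * M) σ x) := by
  have h1 : conjHom σ (alHom hN' hco) = alHom hN hco := by
    apply hom_ext
    intro m hm
    obtain ⟨r, r', d, rfl, hr, hd⟩ := exists_factor hco (NeZero.pos Q) hm
    have h' : ((r' * d : ℕ+) : ℕ) ∣ Q * M := by
      rw [PNat.mul_coe]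
      exact mul_dvd_mul ⟨r, by rw [← hr, mul_comm]⟩ hd
    rw [conjHom_apply, act_jm, alHom_jm hN' hco hr hd hm h', act_symm_jm,
      alHom_jm hN hco hr hd hm h']
  have h2 := AlgHom.congr_fun h1 x
  rw [conjHom_apply, RingEquiv.symm_apply_eq] at h2
  exact h2.symm

theorem act_w [IsAlgClosed K] [IsAlgClosed K'] [CharZero K] [CharZero K'] {q M : ℕ}
    [Fact q.Prime] [NeZero M] (hco : q.Coprime M) (σ : K ≃+* K') (x : FF K (q * M)) :
    act (q * M) σ (w K hco x) = w K' hco (act (q * M) σ x) := act_wq _ _ hco σ x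

end Act

section Red

variable {A A' K K' k k' : Type*} [CommRing A] [IsDomain A] [CommRing A'] [IsDomain A']
  [Field K] [Algebra A K] [IsFractionRing A K] [Field k] [Algebra A k]
  [Field K'] [Algebra A' K'] [IsFractionRing A' K'] [Field k'] [Algebra A' k']
  (τ : A →+* A') (σ : K →+* K') (σb : k →+* k')
  (h1 : ∀ a, σ (algebraMap A K a) = algebraMap A' K' (τ a))
  (h2 : ∀ a, σb (algebraMap A k a) = algebraMap A' k' (τ a))

include h1 in
theorem coeffMap_incL (u : LaurentSeries A) :
    coeffMap σ (incL A K u) = incL A' K' (coeffMap τ u) := by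
  rw [incL, incL, coeffMap_coeffMap, coeffMap_coeffMap]
  exact coeffMap_congr (RingHom.ext h1) u

include h2 in
theorem coeffMap_redL (u : LaurentSeries A) :
    coeffMap σb (redL A k u) = redL A' k' (coeffMap τ u) := by
  rw [redL, redL, coeffMap_coeffMap, coeffMap_coeffMap]
  exact coeffMap_congr (RingHom.ext h2) u

include h1 h2 in
/-- the coefficientwise action on the Gauss ring and reduction -/
theorem coeffMap_mem_WL {x : LaurentSeries K} (hx : x ∈ WL A K k) :
    ∃ h : coeffMap σ x ∈ WL A' K' k',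
      πL A' K' k' ⟨coeffMap σ x, h⟩ = coeffMap σb (πL A K k ⟨x, hx⟩) := by
  obtain ⟨u, v, hv, h⟩ := mem_WL.1 hx
  have hv' : redL A' k' (coeffMap τ v) ≠ 0 := by
    rw [← coeffMap_redL τ σb h2]
    exact fun h0 => hv ((map_eq_zero _).1 h0)
  have h3 : incL A' K' (coeffMap τ v) * coeffMap σ x = incL A' K' (coeffMap τ u) := by
    rw [← coeffMap_incL τ σ h1, ← coeffMap_incL τ σ h1, ← map_mul, h]
  have h4 : coeffMap σ x ∈ WL A' K' k' := ⟨_, _, hv', h3⟩
  refine ⟨h4, ?_⟩
  rw [πL_eq ⟨_, h4⟩ hv' h3, πL_eq ⟨x, hx⟩ hv h, map_div₀, coeffMap_redL τ σb h2,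
    coeffMap_redL τ σb h2]

end Red

end Fermat.Agent.SemiSt
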