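import Fermat.Agent.SemiSt.Galois

/-!
# Norms from level `q M` to level `M`, and their reductions
-/

set_option autoImplicit false
set_option linter.style.haveILetI false
set_option linter.unusedSectionVars false

noncomputable section

namespace Fermat.Agent.SemiSt

open ModularCurve Polynomial IntermediateField Fermat.Agent.ModPoly Fermat.Agent.Red
  Fermat.Agent.RedMod Fermat.Agent.Cusp

/-- The norm as a product over a complete family of embeddings. -/
theorem norm_eq_prod_family {E F L : Type*} [Field E] [Field F] [Field L] [Algebra E F]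
    [FiniteDimensional E F] [Algebra.IsSeparable E F] (ψ : E →+* L) {ι : Type*} [Fintype ι]
    (ε : ι → (F →+* L)) (hε : ∀ i x, ε i (algebraMap E F x) = ψ x) (hinj : Function.Injective ε)
    (hcard : Fintype.card ι = Module.finrank E F) (x : F) :
    ψ (Algebra.norm E x) = ∏ i, ε i x := by
  classical
  let j : L →+* AlgebraicClosure L := algebraMap L (AlgebraicClosure L)
  letI : Algebra E (AlgebraicClosure L) := (j.comp ψ).toAlgebra
  let f : ι → (F →ₐ[E] AlgebraicClosure L) := fun i =>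
    { j.comp (ε i) with
      commutes' := fun x => congrArg j (hε i x) }
  have hf : ∀ i x, f i x = j (ε i x) := fun i x => rfl
  have hfinj : Function.Injective f := by
    intro i i' h
    apply hinj
    apply RingHom.ext
    intro x
    exact j.injective (AlgHom.congr_fun h x)
  have hbij : Function.Bijective f := by
    rw [Fintype.bijective_iff_injective_and_card]
    refine ⟨hfinj, ?_⟩
    rw [hcard, AlgHom.card]
  apply j.injective
  have h1 := Algebra.norm_eq_prod_embeddings E (AlgebraicClosure L) x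
  rw [← (Equiv.ofBijective f hbij).prod_comp] at h1
  rw [map_prod]
  exact h1

section Main

variable {A K k : Type*} [CommRing A] [IsDomain A] [ValuationRing A]
  [Field K] [IsAlgClosed K] [CharZero K] [Algebra A K] [IsFractionRing A K] [Field k] [Algebra A k]
  {q M : ℕ} [hq : Fact q.Prime] [NeZero M] (hco : q.Coprime M)

variable (K q M) in
/-- the norm from level `q M` to level `M` -/
def Nm : FF K (q * M) →* FF K M :=
  letI := inclAlg (k := K) (dvd_mul_left M q)
  Algebra.norm (FF K M)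

/-- the embeddings of level `q M` over level `M` -/
def emb (ζ : Kˣ) : Option (Fin q) → (FF K (q * M) →+* LaurentSeries K)
  | none => (qExpand K q).comp (FF K (q * M)).val.toRingHom
  | some b => (twist (ζ ^ (b : ℕ))).comp ((FF K (q * M)).val.toRingHom.comp
      (w K hco).toRingEquiv.toRingHom)

theorem emb_none (ζ : Kˣ) (x : FF K (q * M)) :
    emb hco ζ none x = qExpand K q (x : LaurentSeries K) := rfl

theorem emb_some (ζ : Kˣ) (b : Fin q) (x : FF K (q * M)) :
    emb hco ζ (some b) x = twist (ζ ^ (b : ℕ)) (w K hco x : LaurentSeries K) := rfl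

theorem twist_qExpand {c : Kˣ} (hc : c ^ q = 1) (x : LaurentSeries K) :
    twist c (qExpand K q x) = qExpand K q x := by
  ext n
  rw [twist_coeff]
  by_cases hn : (q : ℤ) ∣ n
  · obtain ⟨m, rfl⟩ := hn
    rw [zpow_mul, zpow_natCast, hc, one_zpow, Units.val_one, one_mul]
  · rw [qExpand_coeff_of_not_dvd q _ hn, mul_zero]

theorem emb_incl {ζ : Kˣ} (hζ : IsPrimitiveRoot ζ q) (i : Option (Fin q)) (x : FF K M) :
    emb hco ζ i (incl K (dvd_mul_left M q) x) = qExpand K q (x : LaurentSeries K) := by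
  rcases i with _ | b
  · rw [emb_none, coe_incl]
  · rw [emb_some, w_incl, coe_qe]
    apply twist_qExpand
    rw [← pow_mul, mul_comm, pow_mul, hζ.pow_eq_one, one_pow]

theorem emb_injective {ζ : Kˣ} (hζ : IsPrimitiveRoot ζ q) :
    Function.Injective (emb (M := M) hco ζ) := by
  have hd : ((pn q * 1 : ℕ+) : ℕ) ∣ q * M := by
    rw [mul_one, coe_pn]; exact dvd_mul_right _ _
  have hd' : ((1 * 1 : ℕ+) : ℕ) ∣ q * M := by
    rw [mul_one]; exact one_dvd _
  have e0 : emb hco ζ none (jm K (pn q * 1) hd) = Jc 1 (pn q * (pn q * 1)) := by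
    rw [emb_none]
    change qExpand K q (Jc 1 (pn q * 1)) = _
    rw [← Sb_one_eq q (pn q) (coe_pn q), Sb_Jc, one_pow, one_mul]
  have e1 : ∀ b : Fin q, emb hco ζ (some b) (jm K (pn q * 1) hd) = Jc (ζ ^ (b : ℕ)) (1 * 1) := by
    intro b
    have h1 : w K hco (jm K (pn q * 1) hd) = jm K (1 * 1) hd' :=
      wq_jm _ hco (r := pn q) (r' := 1) (d := 1) (by rw [PNat.one_coe, mul_one, coe_pn])
        (by rw [PNat.one_coe]; exact one_dvd M) hd hd'
    rw [emb_some, h1]
    change twist (ζ ^ (b : ℕ)) (Jc 1 (1 * 1)) = _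
    rw [mul_one]
    have h2 : Sb (ζ ^ (b : ℕ)) 1 (Jc 1 1) = Jc (ζ ^ (b : ℕ)) 1 := by
      rw [Sb_Jc, mul_one, mul_one, PNat.one_coe, pow_one]
    rw [← h2]
    ext n
    have h3 := Sb_coeff_mul (ζ ^ (b : ℕ)) 1 (Jc 1 1) n
    rw [PNat.one_coe, Nat.cast_one, one_mul] at h3
    rw [h3, twist_coeff]
  intro i i' h
  have h1 := RingHom.congr_fun h (jm K (pn q * 1) hd)
  have hq1 := hq.out.one_lt
  rcases i with _ | b <;> rcases i' with _ | b'
  · rfl
  · exfalso
    rw [e0, e1] at h1
    have h2 := congrArg (fun n : ℕ+ => (n : ℕ)) (Jc_inj_e h1)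
    simp only [PNat.mul_coe, coe_pn, PNat.one_coe] at h2
    nlinarith
  · exfalso
    rw [e0, e1] at h1
    have h2 := congrArg (fun n : ℕ+ => (n : ℕ)) (Jc_inj_e h1)
    simp only [PNat.mul_coe, coe_pn, PNat.one_coe] at h2
    nlinarith
  · rw [e1, e1] at h1
    have h2 := Jc_inj_c h1
    have h3 := hζ.pow_inj b.2 b'.2 h2
    rw [Fin.ext h3]

theorem finrank_relative (K : Type*) [Field K] [IsAlgClosed K] [CharZero K] {q M : ℕ}
    [hq : Fact q.Prime] [NeZero M] (hco : q.Coprime M) :
    letI := inclAlg (k := K) (dvd_mul_left M q)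
    Module.finrank (FF K M) (FF K (q * M)) = q + 1 := by
  letI := inclAlg (k := K) (dvd_mul_left M q)
  have h1 := finrank_incl (k := K) (dvd_mul_left M q) (natCast_ne_zero_K K (q * M))
  rw [dedekindPsi_mul_coprime hq.out.ne_zero M (NeZero.ne M) hco] at h1
  have h2 := dedekindPsi_prime_pow hq.out 0
  rw [zero_add, pow_one, pow_zero, one_mul] at h2
  rw [h2, mul_comm] at h1
  exact Nat.eq_of_mul_eq_mul_right (dedekindPsi_pos (NeZero.pos M)) h1

/-- **the norm from level `q M` to level `M`, in terms of `q`-expansions** -/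
theorem qExpand_Nm {ζ : Kˣ} (hζ : IsPrimitiveRoot ζ q) (x : FF K (q * M)) :
    qExpand K q (Nm K q M x : LaurentSeries K) = qExpand K q (x : LaurentSeries K) *
      ∏ b : Fin q, twist (ζ ^ (b : ℕ)) (w K hco x : LaurentSeries K) := by
  letI := inclAlg (k := K) (dvd_mul_left M q)
  haveI := finiteDimensional_incl (k := K) (dvd_mul_left M q) (natCast_ne_zero_K K (q * M))
  haveI := isSeparable_incl (k := K) (dvd_mul_left M q) (natCast_ne_zero_K K (q * M))
  have h1 := norm_eq_prod_family (E := FF K M) (F := FF K (q * M)) (L := LaurentSeries K)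
    ((qExpand K q).comp (FF K M).val.toRingHom) (emb hco ζ)
    (fun i x => emb_incl hco hζ i x) (emb_injective hco hζ)
    (by rw [Fintype.card_option, Fintype.card_fin, finrank_relative K hco]) x
  rw [Fintype.prod_option] at h1
  exact h1

/-! ### Reduction of norms -/

omit [CharZero K] [ValuationRing A] [IsAlgClosed K] in
theorem twist_mem_WL {c : Aˣ} (hc : algebraMap A k c = 1) {x : LaurentSeries K}
    (hx : x ∈ WL A K k) :
    ∃ h : twist (Units.map (algebraMap A K : A →* K) c) x ∈ WL A K k,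
      πL A K k ⟨_, h⟩ = πL A K k ⟨x, hx⟩ := by
  obtain ⟨u, v, hv, h⟩ := mem_WL.1 hx
  have hc' : Units.map (algebraMap A k : A →* k) c = 1 := Units.ext hc
  have e1 : ∀ u : LaurentSeries A, incL A K (twist c u) =
      twist (Units.map (algebraMap A K : A →* K) c) (incL A K u) := fun u => coeffMap_twist _ c u
  have e2 : ∀ u : LaurentSeries A, redL A k (twist c u) = redL A k u := by
    intro u
    rw [redL, coeffMap_twist, hc', twist_one]
  have hv' : redL A k (twist c v) ≠ 0 := by rw [e2]; exact hv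
  have h3 : incL A K (twist c v) * twist (Units.map (algebraMap A K : A →* K) c) x =
      incL A K (twist c u) := by rw [e1, e1, ← map_mul, h]
  have h4 : twist (Units.map (algebraMap A K : A →* K) c) x ∈ WL A K k := ⟨_, _, hv', h3⟩
  refine ⟨h4, ?_⟩
  rw [πL_eq ⟨_, h4⟩ hv' h3, πL_eq ⟨x, hx⟩ hv h, e2, e2]

variable [CharP k q]

/-- roots of unity of order `q` are integral and reduce to `1` -/
theorem exists_root_one {ζ : Kˣ} (hζ : ζ ^ q = 1) :
    ∃ c : Aˣ, Units.map (algebraMap A K : A →* K) c = ζ ∧ algebraMap A k c = 1 := by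
  have hz : ∀ ζ : Kˣ, ζ ^ q = 1 → ∃ a : A, algebraMap A K a = ζ := by
    intro ζ hζ
    have hint : IsIntegral A (ζ : K) := by
      refine ⟨X ^ q - C 1, monic_X_pow_sub_C _ hq.out.ne_zero, ?_⟩
      rw [eval₂_sub, eval₂_pow, eval₂_X, eval₂_C, map_one, ← Units.val_pow_eq_pow_val, hζ,
        Units.val_one, sub_self]
    exact IsIntegrallyClosed.isIntegral_iff.1 hint
  obtain ⟨a, ha⟩ := hz ζ hζ
  obtain ⟨b, hb⟩ := hz ζ⁻¹ (by rw [inv_pow, hζ, inv_one])
  have hab : a * b = 1 := by
    apply IsFractionRing.injective A K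
    rw [map_mul, ha, hb, map_one, Units.mul_inv]
  refine ⟨⟨a, b, hab, by rw [mul_comm]; exact hab⟩, Units.ext ha, ?_⟩
  change algebraMap A k a = 1
  have haq : a ^ q = 1 := by
    apply IsFractionRing.injective A K
    rw [map_pow, ha, map_one, ← Units.val_pow_eq_pow_val, hζ, Units.val_one]
  have h1 : frobenius k q (algebraMap A k a) = frobenius k q 1 := by
    rw [frobenius_def, ← map_pow, haq, map_one, map_one]
  exact frobenius_inj k q h1

variable (hk : Function.Surjective (algebraMap A k)) (hM : (M : k) ≠ 0)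

omit [IsAlgClosed K] hq [CharP k q] in
include hk hM in
/-- scaling at the level of good reduction -/
theorem exists_scale_good {y : FF K M} (hy : y ≠ 0) :
    ∃ c : K, c ≠ 0 ∧ IsU A K k (HahnSeries.C c * (y : LaurentSeries K)) := by
  letI : Algebra A (FF K M) := ((algebraMap K (FF K M)).comp (algebraMap A K)).toAlgebra
  haveI : IsScalarTower A K (FF K M) := IsScalarTower.of_algebraMap_eq fun a => rfl
  letI : Algebra A (FF k M) := ((algebraMap k (FF k M)).comp (algebraMap A k)).toAlgebra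
  haveI : IsScalarTower A k (FF k M) := IsScalarTower.of_algebraMap_eq fun a => rfl
  obtain ⟨c, hc, h, h'⟩ := exists_scale (gaussFF K hk hM) (gaussFF_span hk hM) hy
  have e1 : ((algebraMap K (FF K M) c * y : FF K M) : LaurentSeries K) =
      HahnSeries.C c * (y : LaurentSeries K) := by
    rw [← algebraMap_eq_C]; rfl
  have h1 : ((algebraMap K (FF K M) c * y : FF K M) : LaurentSeries K) ∈ WL A K k := h
  have h2 : HahnSeries.C c * (y : LaurentSeries K) ∈ WL A K k := by rw [← e1]; exact h1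
  refine ⟨c, hc, h2, ?_⟩
  intro h0
  apply h'
  apply Subtype.ext
  have g1 : (⟨_, h1⟩ : WL A K k) = ⟨_, h2⟩ := Subtype.ext e1
  exact (congrArg (πL A K k) g1).trans h0

omit [IsAlgClosed K] hq [CharP k q] in
include hk hM in
theorem mem_WL_of_qExpand {q : ℕ} [NeZero q] (y : FF K M)
    (h : qExpand K q (y : LaurentSeries K) ∈ WL A K k) : (y : LaurentSeries K) ∈ WL A K k := by
  rcases eq_or_ne y 0 with rfl | hy
  · exact zero_mem _
  obtain ⟨c, hc, hu⟩ := exists_scale_good (A := A) hk hM hy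
  by_contra hcon
  obtain ⟨a, ha, ha0⟩ := isU_C_inv (A := A) (k := k) hk (c := c) (by
    rintro ⟨b, hb⟩
    apply hcon
    have h1 : (y : LaurentSeries K) = HahnSeries.C (algebraMap A K b) *
        (HahnSeries.C c * (y : LaurentSeries K)) := by
      rw [hb, ← mul_assoc, ← map_mul, inv_mul_cancel₀ hc, map_one, one_mul]
    rw [h1]
    exact mul_mem (const_mem_WL b) hu.1)
  obtain ⟨h2, h3⟩ := hu
  have e1 : qExpand K q (HahnSeries.C c * (y : LaurentSeries K)) =
      HahnSeries.C (algebraMap A K a) * qExpand K q (y : LaurentSeries K) := by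
    rw [map_mul, ha]
    congr 1
    rw [← Sb_one_eq q (pn q) (coe_pn q), Sb_C]
  have h4 := πL_qExpand (q := q) h2 (qExpand_mem_WL h2)
  have h5 : (⟨_, qExpand_mem_WL h2⟩ : WL A K k) = ⟨_, const_mem_WL a⟩ * ⟨_, h⟩ := Subtype.ext e1
  rw [h5, map_mul, πL_const, ha0, map_zero, zero_mul] at h4
  exact h3 ((map_eq_zero _).1 h4.symm)

omit [ValuationRing A] [IsAlgClosed K] [CharZero K] hq [CharP k q] in
theorem πL_mul {x y : LaurentSeries K} (hx : x ∈ WL A K k) (hy : y ∈ WL A K k)
    (hxy : x * y ∈ WL A K k) :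
    πL A K k ⟨x * y, hxy⟩ = πL A K k ⟨x, hx⟩ * πL A K k ⟨y, hy⟩ := by
  have e : (⟨x * y, hxy⟩ : WL A K k) = ⟨x, hx⟩ * ⟨y, hy⟩ := Subtype.ext rfl
  rw [e, map_mul]

omit [ValuationRing A] [IsAlgClosed K] [CharZero K] hq [CharP k q] in
theorem πL_prod {ι : Type*} (s : Finset ι) (x : ι → LaurentSeries K) (y : LaurentSeries k)
    (hx : ∀ i, ∃ h : x i ∈ WL A K k, πL A K k ⟨x i, h⟩ = y) :
    ∃ h : ∏ i ∈ s, x i ∈ WL A K k, πL A K k ⟨_, h⟩ = y ^ s.card := by
  classical
  induction s using Finset.induction_on with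
  | empty =>
    refine ⟨by rw [Finset.prod_empty]; exact one_mem _, ?_⟩
    rw [Finset.card_empty, pow_zero]
    exact map_one (πL A K k)
  | insert i s hi ih =>
    obtain ⟨h1, h2⟩ := ih
    obtain ⟨h3, h4⟩ := hx i
    have h5 : ∏ i ∈ insert i s, x i = x i * ∏ i ∈ s, x i := Finset.prod_insert hi
    have h6 : ∏ i ∈ insert i s, x i ∈ WL A K k := by rw [h5]; exact mul_mem h3 h1
    refine ⟨h6, ?_⟩
    have h7 : (⟨_, h6⟩ : WL A K k) = ⟨_, mul_mem h3 h1⟩ := Subtype.ext h5
    rw [h7, πL_mul h3 h1, h4, h2, Finset.card_insert_of_notMem hi, pow_succ, mul_comm]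

include hco hk hM in
/-- **reduction of norms**: `red (N f) = a · φ(b)` -/
theorem Nm_red {x : FF K (q * M)} (h1 : (x : LaurentSeries K) ∈ WL A K k)
    (h2 : (w K hco x : LaurentSeries K) ∈ WL A K k) :
    ∃ h : (Nm K q M x : LaurentSeries K) ∈ WL A K k, πL A K k ⟨_, h⟩ =
      πL A K k ⟨_, h1⟩ * coeffMap (frobenius k q) (πL A K k ⟨_, h2⟩) := by
  obtain ⟨ζ, hζ⟩ := exists_zeta (k := K) (N := q) (natCast_ne_zero_K K q)
  have h3 := qExpand_Nm hco hζ x
  have h4 : ∀ b : Fin q, ∃ h : twist (ζ ^ (b : ℕ)) (w K hco x : LaurentSeries K) ∈ WL A K k,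
      πL A K k ⟨_, h⟩ = πL A K k ⟨_, h2⟩ := by
    intro b
    have hb : (ζ ^ (b : ℕ)) ^ q = 1 := by
      rw [← pow_mul, mul_comm, pow_mul, hζ.pow_eq_one, one_pow]
    obtain ⟨c, hc, hc1⟩ := exists_root_one (A := A) (k := k) hb
    rw [← hc]
    exact twist_mem_WL hc1 h2
  obtain ⟨h5, h6⟩ := πL_prod Finset.univ _ _ h4
  rw [Finset.card_univ, Fintype.card_fin] at h6
  have h7 : qExpand K q (Nm K q M x : LaurentSeries K) ∈ WL A K k := by
    rw [h3]; exact mul_mem (qExpand_mem_WL h1) h5
  have h8 := mem_WL_of_qExpand (q := q) hk hM (Nm K q M x) h7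
  refine ⟨h8, ?_⟩
  apply (qExpand k q).injective
  rw [← πL_qExpand h8 h7, map_mul, ← πL_qExpand h1 (qExpand_mem_WL h1)]
  have h9 : (⟨_, h7⟩ : WL A K k) = ⟨_, mul_mem (qExpand_mem_WL h1) h5⟩ := Subtype.ext h3
  rw [h9, πL_mul (qExpand_mem_WL h1) h5, h6]
  congr 1
  exact HeckeProd.pow_eq_qExpand q _

end Main

end Fermat.Agent.SemiSt
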