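import Fermat.Agent.SemiSt.Mem

/-!
# The Gauss data of the semistable model
-/

set_option autoImplicit false
set_option linter.style.haveILetI false
set_option linter.unusedSectionVars false

noncomputable section

namespace Fermat.Agent.SemiSt

open ModularCurve Polynomial IntermediateField Fermat.Agent.ModPoly Fermat.Agent.Red
  Fermat.Agent.RedMod Fermat.Agent.Cusp

section Frob

variable {k : Type*} [Field k] {q M : ℕ} [hq : Fact q.Prime] [CharP k q]

theorem qExpand_Jc_one (m : ℕ+) : qExpand k q (Jc 1 m) = (Jc 1 m : LaurentSeries k) ^ q := by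
  haveI : NeZero (m : ℕ) := ⟨m.ne_zero⟩
  rw [HeckeProd.pow_eq_qExpand q, HeckeProd.Fr, Jc_one_eq, coeffMap_qExpand, coeffMap_jqModC]

theorem qExpand_mem_FF_self {x : LaurentSeries k} (hx : x ∈ FF k M) : qExpand k q x ∈ FF k M := by
  rw [FF_eq_adjoin] at hx
  induction hx using IntermediateField.adjoin_induction with
  | mem x hx =>
    obtain ⟨m, hm, rfl⟩ := hx
    rw [qExpand_Jc_one]
    exact pow_mem (Jc_one_mem hm) q
  | algebraMap x =>
    have h1 : qExpand k q (algebraMap k (LaurentSeries k) x) = algebraMap k (LaurentSeries k) x := by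
      rw [← Sb_one_eq q (pn q) (coe_pn q), algebraMap_eq_C, Sb_C]
    rw [h1]
    exact (FF k M).algebraMap_mem x
  | add x y _ _ hx hy => rw [map_add]; exact add_mem hx hy
  | inv x _ hx => rw [map_inv₀]; exact inv_mem hx
  | mul x y _ _ hx hy => rw [map_mul]; exact mul_mem hx hy

variable (k q M) in
/-- the relative Frobenius `x ↦ x(q^q)` of the modular function field in characteristic `q` -/
def Frq : FF k M →ₐ[k] FF k M :=
  ((SbA 1 (pn q)).comp (FF k M).val).codRestrict (FF k M).toSubalgebra (fun x => by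
    change Sb 1 (pn q) (x : LaurentSeries k) ∈ FF k M
    rw [Sb_one_eq q (pn q) (coe_pn q)]
    exact qExpand_mem_FF_self x.2)

theorem coe_Frq (x : FF k M) : (Frq k q M x : LaurentSeries k) = qExpand k q (x : LaurentSeries k) :=
  Sb_one_eq q (pn q) (coe_pn q) (x : LaurentSeries k)

theorem Frq_jm {m : ℕ+} (hm : (m : ℕ) ∣ M) : Frq k q M (jm k m hm) = jm k m hm ^ q := by
  apply Subtype.ext
  rw [coe_Frq]
  exact qExpand_Jc_one m

theorem Frq_jF : Frq k q M (jF' k M) = jF' k M ^ q := Frq_jm _

end Frob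

section Main

variable {A K k : Type*} [CommRing A] [IsDomain A] [ValuationRing A]
  [Field K] [IsAlgClosed K] [CharZero K] [Algebra A K] [IsFractionRing A K] [Field k] [Algebra A k]
  {q M : ℕ} [hq : Fact q.Prime] [NeZero M] (hco : q.Coprime M) [CharP k q]
  (hk : Function.Surjective (algebraMap A k)) (hM : (M : k) ≠ 0)
  [Algebra A (FF K (q * M))] [IsScalarTower A K (FF K (q * M))]
  [Algebra A (FF k M)] [IsScalarTower A k (FF k M)]

variable (K) in
/-- the reduction at the component of `∞` -/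
def red1 : Wφ A k (FF K (q * M)).val →ₐ[A] FF k M where
  toFun x := ⟨πφ A k (FF K (q * M)).val x, red_mem hco hM hk x.1 x.2⟩
  map_one' := Subtype.ext (map_one _)
  map_zero' := Subtype.ext (map_zero _)
  map_mul' x y := Subtype.ext (map_mul _ x y)
  map_add' x y := Subtype.ext (map_add _ x y)
  commutes' a := by
    apply Subtype.ext
    rw [IsScalarTower.algebraMap_apply A k (FF k M)]
    change πφ A k (FF K (q * M)).val (algebraMap A _ a) =
      algebraMap k (LaurentSeries k) (algebraMap A k a)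
    rw [algebraMap_eq_C]
    exact πφ_algebraMap (FF K (q * M)).val a

theorem coe_red1 (x : Wφ A k (FF K (q * M)).val) :
    (red1 K hco hk hM x : LaurentSeries k) = πL A K k ⟨x.1, x.2⟩ := rfl

variable (K) in
/-- the reduction map of the semistable model -/
def sred : WW A K k hco →ₐ[A] FF k M × FF k M where
  toFun x := (⟨(pp2 A K k hco x).1, red_mem hco hM hk x.1 x.2.1⟩,
    ⟨(pp2 A K k hco x).2, red_mem hco hM hk (w K hco x.1) x.2.2⟩)
  map_one' := by
    apply Prod.ext
    · apply Subtype.ext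
      change (pp2 A K k hco 1).1 = 1
      rw [map_one]; rfl
    · apply Subtype.ext
      change (pp2 A K k hco 1).2 = 1
      rw [map_one]; rfl
  map_zero' := by
    apply Prod.ext
    · apply Subtype.ext
      change (pp2 A K k hco 0).1 = 0
      rw [map_zero]; rfl
    · apply Subtype.ext
      change (pp2 A K k hco 0).2 = 0
      rw [map_zero]; rfl
  map_mul' x y := by
    apply Prod.ext
    · apply Subtype.ext
      change (pp2 A K k hco (x * y)).1 = (pp2 A K k hco x).1 * (pp2 A K k hco y).1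
      rw [map_mul]; rfl
    · apply Subtype.ext
      change (pp2 A K k hco (x * y)).2 = (pp2 A K k hco x).2 * (pp2 A K k hco y).2
      rw [map_mul]; rfl
  map_add' x y := by
    apply Prod.ext
    · apply Subtype.ext
      change (pp2 A K k hco (x + y)).1 = (pp2 A K k hco x).1 + (pp2 A K k hco y).1
      rw [map_add]; rfl
    · apply Subtype.ext
      change (pp2 A K k hco (x + y)).2 = (pp2 A K k hco x).2 + (pp2 A K k hco y).2
      rw [map_add]; rfl
  commutes' a := by
    have h1 := pp2_algebraMap (A := A) (K := K) (k := k) hco a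
    rw [Prod.algebraMap_apply, IsScalarTower.algebraMap_apply A k (FF k M)]
    apply Prod.ext
    · apply Subtype.ext
      change (pp2 A K k hco (algebraMap A _ a)).1 = algebraMap k (LaurentSeries k) (algebraMap A k a)
      rw [h1, algebraMap_eq_C]
    · apply Subtype.ext
      change (pp2 A K k hco (algebraMap A _ a)).2 = algebraMap k (LaurentSeries k) (algebraMap A k a)
      rw [h1, algebraMap_eq_C]

theorem coe_sred_fst {x : FF K (q * M)} (hx : x ∈ WW A K k hco) :
    ((sred K hco hk hM ⟨x, hx⟩).1 : LaurentSeries k) = πL A K k ⟨x, hx.1⟩ := rfl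

theorem coe_sred_snd {x : FF K (q * M)} (hx : x ∈ WW A K k hco) :
    ((sred K hco hk hM ⟨x, hx⟩).2 : LaurentSeries k) = πL A K k ⟨w K hco x, hx.2⟩ := rfl

theorem sred_eq {x : FF K (q * M)} (hx : x ∈ WW A K k hco) :
    sred K hco hk hM ⟨x, hx⟩ =
      (red1 K hco hk hM ⟨x, hx.1⟩, red1 K hco hk hM ⟨w K hco x, hx.2⟩) := rfl

theorem sred_w {x : FF K (q * M)} (hx : x ∈ WW A K k hco) :
    sred K hco hk hM ⟨w K hco x, w_mem_WW hco hx⟩ = (sred K hco hk hM ⟨x, hx⟩).swap := by
  apply Prod.ext
  · rfl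
  · apply Subtype.ext
    rw [coe_sred_snd]
    change πL A K k ⟨(w K hco (w K hco x) : LaurentSeries K), _⟩ = πL A K k ⟨(x : LaurentSeries K), _⟩
    congr 2
    rw [w_w]

theorem sred_of_lift {x : FF K (q * M)} {u v : LaurentSeries A} (h : HasLift A hco x u v)
    (hx : x ∈ WW A K k hco) {y : FF k M × FF k M} (h1 : redL A k u = y.1) (h2 : redL A k v = y.2) :
    sred K hco hk hM ⟨x, hx⟩ = y := by
  have h3 := h.pp2 (k := k) hco hx
  apply Prod.ext
  · apply Subtype.ext
    rw [← h1]
    exact congrArg Prod.fst h3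
  · apply Subtype.ext
    rw [← h2]
    exact congrArg Prod.snd h3

/-! ### Elements of level `M` -/

theorem incl_mem_WW {x : FF K M} (hx : (x : LaurentSeries K) ∈ WL A K k) :
    incl K (dvd_mul_left M q) x ∈ WW A K k hco := by
  rw [mem_WW, w_incl, coe_qe, coe_incl]
  exact ⟨hx, qExpand_mem_WL hx⟩

theorem qe_mem_WW {x : FF K M} (hx : (x : LaurentSeries K) ∈ WL A K k) :
    qe K q M x ∈ WW A K k hco := by
  rw [mem_WW, w_qe, coe_qe, coe_incl]
  exact ⟨qExpand_mem_WL hx, hx⟩

theorem sred_incl {x : FF K M} (hx : (x : LaurentSeries K) ∈ WL A K k)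
    (hx' : incl K (dvd_mul_left M q) x ∈ WW A K k hco) (y : FF k M)
    (hy : (y : LaurentSeries k) = πL A K k ⟨x, hx⟩) :
    sred K hco hk hM ⟨incl K (dvd_mul_left M q) x, hx'⟩ = (y, Frq k q M y) := by
  apply Prod.ext
  · apply Subtype.ext
    rw [coe_sred_fst, hy]
    congr 2
  · apply Subtype.ext
    rw [coe_sred_snd, coe_Frq, hy, ← πL_qExpand hx (qExpand_mem_WL hx)]
    congr 2
    rw [w_incl, coe_qe]

theorem sred_qe {x : FF K M} (hx : (x : LaurentSeries K) ∈ WL A K k)
    (hx' : qe K q M x ∈ WW A K k hco) (y : FF k M)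
    (hy : (y : LaurentSeries k) = πL A K k ⟨x, hx⟩) :
    sred K hco hk hM ⟨qe K q M x, hx'⟩ = (Frq k q M y, y) := by
  apply Prod.ext
  · apply Subtype.ext
    rw [coe_sred_fst, coe_Frq, hy, ← πL_qExpand hx (qExpand_mem_WL hx)]
    congr 2
    rw [coe_qe]
  · apply Subtype.ext
    rw [coe_sred_snd, hy]
    congr 2
    rw [w_qe, coe_incl]

/-! ### The Gauss data -/

theorem coe_cA (i : Fin (dedekindPsi M)) : cA hM k i ∈ FF k M := cst_mem_FF (monos_mem hM i)

variable (k q M) in
/-- the function `j - j^(q^2)` -/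
def ubF : FF k M := jF' k M - jF' k M ^ (q * q)

theorem coe_ubF : (ubF k q M : LaurentSeries k) = ub k q := by
  rw [ub, ← Jc_one_one]
  rfl

theorem sred_jF (h : jF' K (q * M) ∈ WW A K k hco) :
    sred K hco hk hM ⟨jF' K (q * M), h⟩ = (jF' k M, jF' k M ^ q) := by
  apply sred_of_lift hco hk hM hasLift_jF
  · rw [coeffMap_jqModC]
    exact Jc_one_one.symm
  · rw [coeffMap_qExpand, coeffMap_jqModC, qExpand_jqModC, ← Jc_one_one]
    rfl

theorem sred_y (i : Fin (dedekindPsi M) ⊕ (Fin (dedekindPsi M) × Fin q))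
    (h : yy K q hco hM i ∈ WW A K k hco) :
    sred K hco hk hM ⟨yy K q hco hM i, h⟩ = Sum.elim
      (fun i => (ubF k q M * ⟨cA hM k i, coe_cA hM i⟩, 0))
      (fun x => (0, ubF k q M * ⟨cA hM k x.1, coe_cA hM x.1⟩ * jF' k M ^ (x.2 : ℕ))) i := by
  have h1 := redL_y (A := A) (k := k) (q := q) hM i
  have e1 := congrArg Prod.fst h1
  have e2 := congrArg Prod.snd h1
  refine sred_of_lift hco hk hM (hasLift_yy hM i) h (e1.trans ?_) (e2.trans ?_)
  · rcases i with i | ⟨i, a⟩
    · simp only [Sum.elim_inl]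
      rw [MulMemClass.coe_mul, coe_ubF]
    · rfl
  · rcases i with i | ⟨i, a⟩
    · rfl
    · simp only [Sum.elim_inr]
      rw [MulMemClass.coe_mul, MulMemClass.coe_mul, coe_ubF, SubmonoidClass.coe_pow, ← Jc_one_one]
      rfl

/-- the product of the inclusions -/
def valP : (FF k M × FF k M) →ₐ[k] LaurentSeries k × LaurentSeries k :=
  AlgHom.prodMap (FF k M).val (FF k M).val

theorem valP_injective : Function.Injective (valP (k := k) (M := M)) := by
  intro x y hxy
  apply Prod.ext
  · exact Subtype.ext (congrArg Prod.fst hxy)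
  · exact Subtype.ext (congrArg Prod.snd hxy)

variable (K) in
/-- **Gauss data of the semistable model** -/
def sgauss : GaussData A K (FF K (q * M)) k (FF k M × FF k M)
    (Fin (dedekindPsi M) ⊕ (Fin (dedekindPsi M) × Fin q)) where
  W := WW A K k hco
  π := sred K hco hk hM
  t := jF' K (q * M)
  ht := (hasLift_jF (A := A) (hco := hco)).mem hco
  y := yy K q hco hM
  hy i := (hasLift_yy (A := A) (hco := hco) hM i).mem hco
  isUnit_of x hx := by
    have h1 := Prod.isUnit_iff.1 hx
    exact isUnit_of_pp2 hco x (fun h0 => h1.1.ne_zero (Subtype.ext h0))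
      (fun h0 => h1.2.ne_zero (Subtype.ext h0))
  indep P hP := by
    rw [finsum_eq_sum_of_fintype] at hP
    refine indep_aux (k := k) (q := q) hM P ?_
    have h1 := congrArg (valP (k := k) (M := M)) hP
    rw [map_sum, map_zero] at h1
    rw [← h1]
    refine Finset.sum_congr rfl fun i _ => ?_
    rw [map_mul, sred_jF, ← aeval_algHom_apply, sred_y]
    have e1 : valP (jF' k M, jF' k M ^ q) = (jqModC k, jqModC k ^ q) := by
      rw [← Jc_one_one]
      rfl
    rw [e1]
    congr 1
    rcases i with i | ⟨i, a⟩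
    · simp only [Sum.elim_inl]
      rw [← coe_ubF (M := M)]
      rfl
    · simp only [Sum.elim_inr]
      rw [← coe_ubF (M := M), ← Jc_one_one]
      rfl
  isUnit_t P hP := by
    rw [sred_jF, aeval_prod]
    have h2 := isUnit_aeval_pair (k := k) (q := q) hP
    refine Prod.isUnit_iff.2 ⟨IsUnit.mk0 _ fun h0 => hP ?_, IsUnit.mk0 _ fun h0 => hP ?_⟩
    · apply aeval_jF_injective (N := M)
      rw [map_zero]
      exact h0
    · have h3 : aeval (jF' k M ^ q) P = 0 := h0
      rw [← expand_aeval] at h3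
      have h4 := aeval_jF_injective (N := M) (h3.trans (map_zero _).symm)
      exact Polynomial.expand_injective hq.out.pos (h4.trans (map_zero _).symm)

theorem sgauss_W : (sgauss K hco hk hM).W = WW A K k hco := rfl

theorem sgauss_t : (sgauss K hco hk hM).t = jF' K (q * M) := rfl

theorem sgauss_πt : (sgauss K hco hk hM).π ⟨(sgauss K hco hk hM).t, (sgauss K hco hk hM).ht⟩ =
    (jF' k M, jF' k M ^ q) := sred_jF hco hk hM _

theorem sgauss_span (x : FF K (q * M)) : ∃ P : K[X], P ≠ 0 ∧
    ∃ Q : Fin (dedekindPsi M) ⊕ (Fin (dedekindPsi M) × Fin q) → K[X],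
      aeval (sgauss K hco hk hM).t P * x = (sgauss K hco hk hM).comb Q := by
  haveI : FiniteDimensional K⟮(sgauss K hco hk hM).t⟯ (FF K (q * M)) :=
    finiteDimensional_E' (natCast_ne_zero_K K (q * M))
  apply GaussData.hspan_of_finrank
  rw [card_ι hco]
  exact finrank_E' (natCast_ne_zero_K K (q * M))

end Main

end Fermat.Agent.SemiSt
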