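import Fermat.Agent.Cusp.Cusps

/-!
# Atkin-Lehner involutions of modular function fields, in any characteristic prime to the level
-/

set_option autoImplicit false
set_option linter.style.haveILetI false
set_option linter.unusedSectionVars false

noncomputable section

namespace Fermat.Agent.SemiSt

open ModularCurve Polynomial IntermediateField Fermat.Agent.ModPoly Fermat.Agent.Cusp AlgebraicCurve

section Comb

theorem exists_inv_eq {Q M : ℕ} (hQ : 0 < Q) (hM : 0 < M) (hco : Q.Coprime M) {ι : Type*}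
    [Fintype ι] {S : ι → ℕ} (F : Fam (Q * M) S) : ∃ i, S i = M := by
  classical
  have hψM := dedekindPsi_pos hM
  have hN : 0 < Q * M := Nat.mul_pos hQ hM
  have hcard : ∀ d, d ∣ Q → dedekindPsi d * (Finset.univ.filter fun i => M * d ∣ S i).card =
      dedekindPsi Q := by
    intro d hd
    have h1 := F.card_dvd hN (M * d) (by rw [mul_comm]; exact mul_dvd_mul hd dvd_rfl)
    have hd0 : d ≠ 0 := (Nat.pos_of_dvd_of_pos hd hQ).ne'
    rw [dedekindPsi_mul_coprime hM.ne' d hd0 (hco.symm.coprime_dvd_right hd),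
      dedekindPsi_mul_coprime hQ.ne' M hM.ne' hco, mul_comm (dedekindPsi Q), mul_assoc] at h1
    exact Nat.eq_of_mul_eq_mul_left hψM h1
  have h0 : (Finset.univ.filter fun i => M ∣ S i).card = dedekindPsi Q := by
    have := hcard 1 (one_dvd _)
    rw [dedekindPsi_one, one_mul, mul_one] at this
    exact this
  have hF : Fam Q (fun i : {i // M ∣ S i} => S i / M) := by
    refine ⟨?_, ?_, ?_⟩
    · rintro ⟨i, hi⟩
      have := F.dvd i
      obtain ⟨a, ha⟩ := hi
      rw [ha, mul_comm] at this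
      change S i / M ∣ Q
      rw [ha, Nat.mul_div_cancel_left _ hM]
      exact Nat.dvd_of_mul_dvd_mul_right hM this
    · intro m hm
      have hm0 : m ≠ 0 := (Nat.pos_of_dvd_of_pos hm hQ).ne'
      have h3 : ∀ i : {i // M ∣ S i}, (Nat.gcd m (S i / M)) ^ 2 =
          ∑ d ∈ m.divisors, if M * d ∣ S i then J2 d else 0 := by
        rintro ⟨i, a, ha⟩
        rw [← sum_J2, ← Finset.sum_filter]
        congr 1
        ext d
        simp only [Nat.mem_divisors, Finset.mem_filter, Nat.dvd_gcd_iff]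
        rw [ha, Nat.mul_div_cancel_left _ hM, Nat.mul_dvd_mul_iff_left hM]
        have : m.gcd a ≠ 0 := Nat.gcd_ne_zero_left hm0
        tauto
      simp_rw [h3]
      rw [Finset.sum_comm, ← Nat.card_eq_fintype_card, Nat.card_eq_fintype_card,
        Fintype.card_subtype, h0]
      nth_rewrite 2 [← Nat.sum_totient m]
      rw [Finset.sum_mul]
      refine Finset.sum_congr rfl fun d hd => ?_
      rw [Nat.mem_divisors] at hd
      have h4 := hcard d (hd.1.trans hm)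
      rw [← h4, ← mul_assoc, ← J2_apply, ← Finset.sum_filter, Finset.sum_const, smul_eq_mul,
        mul_comm]
      congr 1
      rw [← Fintype.card_subtype, ← Fintype.card_subtype]
      refine Fintype.card_congr ?_
      exact
        { toFun := fun x => ⟨x.1.1, x.2⟩
          invFun := fun x => ⟨⟨x.1, (dvd_mul_right _ _).trans x.2⟩, x.2⟩
          left_inv := fun _ => rfl
          right_inv := fun _ => rfl }
    · rw [Fintype.card_subtype, h0]
  obtain ⟨⟨i, a, ha⟩, hi⟩ := hF.exists_one hQ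
  refine ⟨i, ?_⟩
  change S i / M = 1 at hi
  rw [ha, Nat.mul_div_cancel_left _ hM] at hi
  rw [ha, hi, mul_one]

theorem exists_factor {Q M : ℕ} (hco : Q.Coprime M) (hQ : 0 < Q) {m : ℕ+} (hm : (m : ℕ) ∣ Q * M) :
    ∃ r r' d : ℕ+, m = r * d ∧ (r : ℕ) * r' = Q ∧ (d : ℕ) ∣ M := by
  have h1 := hco.gcd_mul (m : ℕ)
  rw [Nat.gcd_eq_left hm] at h1
  have h2 : 0 < Nat.gcd m Q := Nat.gcd_pos_of_pos_left _ m.pos
  have h3 : 0 < Nat.gcd m M := Nat.gcd_pos_of_pos_left _ m.pos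
  obtain ⟨t, ht⟩ := Nat.gcd_dvd_right (m : ℕ) Q
  have ht0 : 0 < t := Nat.pos_of_ne_zero (by
    rintro rfl
    rw [mul_zero] at ht
    exact hQ.ne' ht)
  exact ⟨⟨_, h2⟩, ⟨t, ht0⟩, ⟨_, h3⟩, PNat.eq h1, ht.symm, Nat.gcd_dvd_right _ _⟩

end Comb

section Emb

variable {k : Type*} [Field k] [IsAlgClosed k] {Q M : ℕ} [NeZero Q] [NeZero M]

theorem gcd_mul_eq (hco : Q.Coprime M) {r r' d : ℕ+} (hr : (r : ℕ) * r' = Q) (hd : (d : ℕ) ∣ M) :
    Nat.gcd (r * d : ℕ) M = d := by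
  have h1 : Nat.Coprime (r : ℕ) M := Nat.Coprime.coprime_dvd_left ⟨r', hr.symm⟩ hco
  rw [Nat.Coprime.gcd_mul_left_cancel _ h1, Nat.gcd_eq_left hd]

theorem exists_AL_aux (hN : ((Q * M : ℕ) : k) ≠ 0) (hco : Q.Coprime M) :
    ∃ T : FF k (Q * M) →ₐ[k] LaurentSeries k,
      ∀ (r r' d : ℕ+) (_ : (r : ℕ) * r' = Q) (_ : (d : ℕ) ∣ M)
        (h : ((r * d : ℕ+) : ℕ) ∣ Q * M), T (jm k (r * d) h) = Jc 1 (pn M * (r' * d)) := by
  haveI := finite_Emb (k := k) (N := Q * M) hN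
  letI := Fintype.ofFinite (Emb k (Q * M))
  obtain ⟨τ, hτ⟩ := exists_inv_eq (NeZero.pos Q) (NeZero.pos M) hco (fam (k := k) (N := Q * M) hN)
  obtain ⟨c, e, κ, h⟩ := τ.exists_data' hN
  rw [hτ] at h
  have hup : ∀ (p : ℕ) [Fact p.Prime] (m : ℕ+) (_ : ((pp p * m : ℕ+) : ℕ) ∣ Q * M),
      Nat.gcd (pp p * m : ℕ+) M ≠ Nat.gcd m M → c (pp p * m : ℕ+) = c m ^ p := by
    intro p _ m hpm hne
    have hm := ppm_dvd hpm
    have h3 := h (pp p * m) hpm
    rcases (h m hm).next (p := p) hpm with ⟨κ', h'⟩ | ⟨c', e', κ', hc', -, h'⟩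
    · exact (h3.unique h').2
    · exact absurd (h3.unique_s h') hne
  have hdown : ∀ (p : ℕ) [Fact p.Prime] (m : ℕ+) (_ : ((pp p * m : ℕ+) : ℕ) ∣ Q * M),
      Nat.gcd (pp p * m : ℕ+) M = Nat.gcd m M → c (pp p * m : ℕ+) ^ p = c m := by
    intro p _ m hpm hne
    have hm := ppm_dvd hpm
    have h3 := h (pp p * m) hpm
    rcases (h m hm).next (p := p) hpm with ⟨κ', h'⟩ | ⟨c', e', κ', hc', -, h'⟩
    · exfalso
      have h4 := h3.unique_s h'
      rw [hne] at h4
      have h5 : 0 < Nat.gcd m M := Nat.gcd_pos_of_pos_left _ m.pos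
      have h6 := (Fact.out : p.Prime).one_lt
      nlinarith
    · rw [(h3.unique h').2, hc']
  have hc1 : c 1 = 1 := by
    have := τ.c_one (h 1 (one_dvd _)).map_j
    exact this.1
  -- the divisors of `Q`
  have hcr : ∀ r' r : ℕ+, (r : ℕ) * r' = Q → c r = c Q ^ (r' : ℕ) := by
    intro r'
    induction r' using pnat_prime_induction with
    | h1 =>
      intro r hr
      rw [PNat.one_coe, mul_one] at hr
      rw [hr, PNat.one_coe, pow_one]
    | h2 p m ih =>
      intro r hr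
      have h1 : ((pp p * r : ℕ+) : ℕ) * m = Q := by
        rw [← hr]
        simp only [PNat.mul_coe, coe_pp]
        ring
      have h2 : ((pp p * r : ℕ+) : ℕ) ∣ Q := ⟨m, h1.symm⟩
      have h3 : (r : ℕ) ∣ Q := ⟨_, hr.symm⟩
      rw [← hdown p r (h2.trans (dvd_mul_right _ _)) (by
        rw [(Nat.Coprime.coprime_dvd_left h2 hco).gcd_eq_one,
          (Nat.Coprime.coprime_dvd_left h3 hco).gcd_eq_one]), ih _ h1, ← pow_mul, PNat.mul_coe,
        coe_pp, mul_comm p]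
  -- all divisors
  have hcd : ∀ d r r' : ℕ+, (r : ℕ) * r' = Q → (d : ℕ) ∣ M → c (r * d : ℕ+) = c Q ^ (r' * d : ℕ) := by
    intro d
    induction d using pnat_prime_induction with
    | h1 =>
      intro r r' hr _
      rw [mul_one, PNat.one_coe, mul_one, hcr r' r hr]
    | h2 p m ih =>
      intro r r' hr hd
      have hm : (m : ℕ) ∣ M := ppm_dvd hd
      have e1 : r * (pp p * m) = pp p * (r * m) := by ring
      have h1 : ((r * (pp p * m) : ℕ+) : ℕ) ∣ Q * M := by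
        rw [PNat.mul_coe]
        exact mul_dvd_mul ⟨_, hr.symm⟩ hd
      rw [e1] at h1 ⊢
      rw [hup p (r * m) h1, ih r r' hr hm, ← pow_mul]
      · congr 1
        rw [PNat.mul_coe, coe_pp]
        ring
      · have g1 := gcd_mul_eq hco hr hd
        have g2 := gcd_mul_eq hco hr hm
        rw [← e1, PNat.mul_coe r (pp p * m), PNat.mul_coe r m, g1, g2, PNat.mul_coe, coe_pp]
        have h6 := (Fact.out : p.Prime).one_lt
        have h7 := m.pos
        intro h8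
        nlinarith
  have hcQ : c Q ^ Q = 1 := by
    have := hcr (pn Q) 1 (by rw [PNat.one_coe, one_mul, coe_pn])
    rw [coe_pn] at this
    rw [← this]
    exact hc1
  obtain ⟨a, b, hab⟩ := Nat.isCoprime_iff_coprime.2 hco
  obtain ⟨z, hz⟩ : ∃ z : kˣ, z ^ M * c Q = 1 := by
    refine ⟨c Q ^ (-b), ?_⟩
    have h1 : (c Q ^ (-b)) ^ M * c Q = c Q ^ (-b * M + 1) := by
      rw [zpow_add, zpow_one, zpow_mul, zpow_natCast]
    rw [h1, show -b * (M : ℤ) + 1 = Q * a by linear_combination -hab, zpow_mul, zpow_natCast, hcQ,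
      one_zpow]
  refine ⟨(SbA z 1).comp τ.1, ?_⟩
  intro r r' d hr hd hrd
  have h1 : τ.1 (jm k (r * d) hrd) = Jc (c (r * d : ℕ+)) (e (r * d : ℕ+)) := (h (r * d) hrd).map_j
  have h2 : e (r * d : ℕ+) = pn M * (r' * d) := by
    apply PNat.eq
    apply Nat.eq_of_mul_eq_mul_right (r * d).pos
    rw [(h (r * d) hrd).mul_eq, PNat.mul_coe, gcd_mul_eq hco hr hd, PNat.mul_coe, PNat.mul_coe,
      coe_pn, ← hr]
    ring
  rw [AlgHom.comp_apply, h1, SbA_one_Jc, h2, hcd d r r' hr hd, PNat.mul_coe, PNat.mul_coe, coe_pn,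
    pow_mul, ← mul_pow, hz, one_pow]

theorem exists_AL (hN : ((Q * M : ℕ) : k) ≠ 0) (hco : Q.Coprime M) :
    ∃ w : FF k (Q * M) →ₐ[k] FF k (Q * M),
      ∀ (r r' d : ℕ+) (_ : (r : ℕ) * r' = Q) (_ : (d : ℕ) ∣ M)
        (h : ((r * d : ℕ+) : ℕ) ∣ Q * M) (h' : ((r' * d : ℕ+) : ℕ) ∣ Q * M),
        w (jm k (r * d) h) = jm k (r' * d) h' := by
  obtain ⟨T, hT⟩ := exists_AL_aux hN hco
  let φ : FF k (Q * M) →ₐ[k] LaurentSeries k := (SbA 1 (pn M)).comp (FF k (Q * M)).val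
  have hφinj : Function.Injective φ := by
    intro x y hxy
    apply Subtype.ext
    exact Sb_injective 1 (pn M) hxy
  have hmem : ∀ m : ℕ+, (m : ℕ) ∣ Q * M → Jc 1 (pn M * m) ∈ φ.range := by
    intro m hm
    refine ⟨jm k m hm, ?_⟩
    change Sb 1 (pn M) (Jc 1 m) = _
    rw [Sb_Jc, one_pow, one_mul]
  have hrange : ∀ x : FF k (Q * M), T x ∈ φ.range := by
    intro x
    have h4 : x ∈ IntermediateField.adjoin k
        {x : FF k (Q * M) | ∃ (m : ℕ+) (hm : (m : ℕ) ∣ Q * M), x = jm k m hm} := by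
      rw [adjoin_jm_eq_top]; exact IntermediateField.mem_top
    induction h4 using IntermediateField.adjoin_induction with
    | mem x hx =>
      obtain ⟨m, hm, rfl⟩ := hx
      obtain ⟨r, r', d, rfl, hr, hd⟩ := exists_factor hco (NeZero.pos Q) hm
      rw [hT r r' d hr hd hm]
      refine hmem _ ?_
      rw [PNat.mul_coe]
      exact mul_dvd_mul ⟨r, by rw [← hr, mul_comm]⟩ hd
    | algebraMap x => rw [AlgHom.commutes]; exact φ.range.algebraMap_mem x
    | add x y _ _ hx hy =>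
      have h1 := T.toRingHom.map_add x y
      change T (x + y) = T x + T y at h1
      rw [h1]; exact add_mem hx hy
    | inv x _ hx =>
      rw [map_inv₀]
      obtain ⟨y, hy⟩ := hx
      exact ⟨y⁻¹, by
        rw [← hy]
        exact map_inv₀ φ y⟩
    | mul x y _ _ hx hy => rw [map_mul]; exact mul_mem hx hy
  let e' := AlgEquiv.ofInjective φ hφinj
  let w : FF k (Q * M) →ₐ[k] FF k (Q * M) :=
    (e'.symm : φ.range →ₐ[k] FF k (Q * M)).comp (T.codRestrict φ.range hrange)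
  have hw : ∀ x, φ (w x) = T x := by
    intro x
    have h5 := e'.apply_symm_apply ⟨T x, hrange x⟩
    exact congrArg Subtype.val h5
  refine ⟨w, ?_⟩
  intro r r' d hr hd h h'
  apply hφinj
  rw [hw, hT r r' d hr hd h]
  change _ = Sb 1 (pn M) (Jc 1 (r' * d))
  rw [Sb_Jc, one_pow, one_mul]

/-- the Atkin-Lehner endomorphism `w_Q` of the modular function field of level `Q M` -/
def alHom (hN : ((Q * M : ℕ) : k) ≠ 0) (hco : Q.Coprime M) :
    FF k (Q * M) →ₐ[k] FF k (Q * M) := (exists_AL hN hco).choose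

theorem alHom_jm (hN : ((Q * M : ℕ) : k) ≠ 0) (hco : Q.Coprime M) {r r' d : ℕ+}
    (hr : (r : ℕ) * r' = Q) (hd : (d : ℕ) ∣ M) (h : ((r * d : ℕ+) : ℕ) ∣ Q * M)
    (h' : ((r' * d : ℕ+) : ℕ) ∣ Q * M) : alHom hN hco (jm k (r * d) h) = jm k (r' * d) h' :=
  (exists_AL hN hco).choose_spec r r' d hr hd h h'

theorem alHom_alHom (hN : ((Q * M : ℕ) : k) ≠ 0) (hco : Q.Coprime M) :
    (alHom hN hco).comp (alHom hN hco) = AlgHom.id k (FF k (Q * M)) := by
  apply hom_ext
  intro m hm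
  obtain ⟨r, r', d, rfl, hr, hd⟩ := exists_factor hco (NeZero.pos Q) hm
  have h' : ((r' * d : ℕ+) : ℕ) ∣ Q * M := by
    rw [PNat.mul_coe]
    exact mul_dvd_mul ⟨r, by rw [← hr, mul_comm]⟩ hd
  rw [AlgHom.comp_apply, alHom_jm hN hco hr hd hm h',
    alHom_jm hN hco (r := r') (r' := r) (by rw [mul_comm]; exact hr) hd h' hm]
  rfl

/-- the Atkin-Lehner involution `w_Q` of the modular function field of level `Q M` -/
def wq (hN : ((Q * M : ℕ) : k) ≠ 0) (hco : Q.Coprime M) : FF k (Q * M) ≃ₐ[k] FF k (Q * M) :=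
  AlgEquiv.ofAlgHom (alHom hN hco) (alHom hN hco) (alHom_alHom hN hco) (alHom_alHom hN hco)

theorem wq_wq (hN : ((Q * M : ℕ) : k) ≠ 0) (hco : Q.Coprime M) (x : FF k (Q * M)) :
    wq hN hco (wq hN hco x) = x := AlgHom.congr_fun (alHom_alHom hN hco) x

theorem wq_jm (hN : ((Q * M : ℕ) : k) ≠ 0) (hco : Q.Coprime M) {r r' d : ℕ+}
    (hr : (r : ℕ) * r' = Q) (hd : (d : ℕ) ∣ M) (h : ((r * d : ℕ+) : ℕ) ∣ Q * M)
    (h' : ((r' * d : ℕ+) : ℕ) ∣ Q * M) : wq hN hco (jm k (r * d) h) = jm k (r' * d) h' :=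
  alHom_jm hN hco hr hd h h'

/-! ### The degeneracy map `x ↦ x(q^Q)` -/

omit [IsAlgClosed k] in
theorem qExpand_mem_FF {x : LaurentSeries k} (hx : x ∈ FF k M) :
    qExpand k Q x ∈ FF k (Q * M) := by
  rw [FF_eq_adjoin] at hx
  induction hx using IntermediateField.adjoin_induction with
  | mem x hx =>
    obtain ⟨m, hm, rfl⟩ := hx
    have h1 : qExpand k Q (Jc 1 m) = Jc 1 (pn Q * m) := by
      rw [← Sb_one_eq Q (pn Q) (coe_pn Q), Sb_Jc, one_pow, one_mul]
    rw [h1]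
    apply Jc_one_mem
    rw [PNat.mul_coe, coe_pn]
    exact mul_dvd_mul_left Q hm
  | algebraMap x =>
    have h1 : qExpand k Q (algebraMap k (LaurentSeries k) x) = algebraMap k (LaurentSeries k) x := by
      rw [← Sb_one_eq Q (pn Q) (coe_pn Q), algebraMap_eq_C, Sb_C]
    rw [h1]
    exact (FF k (Q * M)).algebraMap_mem x
  | add x y _ _ hx hy => rw [map_add]; exact add_mem hx hy
  | inv x _ hx => rw [map_inv₀]; exact inv_mem hx
  | mul x y _ _ hx hy => rw [map_mul]; exact mul_mem hx hy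

variable (k Q M) in
omit [IsAlgClosed k] in
/-- the second degeneracy map `x ↦ x(q^Q)` -/
def qe : FF k M →ₐ[k] FF k (Q * M) :=
  ((SbA 1 (pn Q)).comp (FF k M).val).codRestrict (FF k (Q * M)).toSubalgebra (fun x => by
    change Sb 1 (pn Q) (x : LaurentSeries k) ∈ FF k (Q * M)
    rw [Sb_one_eq Q (pn Q) (coe_pn Q)]
    exact qExpand_mem_FF x.2)

omit [IsAlgClosed k] in
theorem coe_qe (x : FF k M) : (qe k Q M x : LaurentSeries k) = qExpand k Q (x : LaurentSeries k) :=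
  Sb_one_eq Q (pn Q) (coe_pn Q) (x : LaurentSeries k)

omit [IsAlgClosed k] in
theorem qe_jm {d : ℕ+} (hd : (d : ℕ) ∣ M) (h : ((pn Q * d : ℕ+) : ℕ) ∣ Q * M) :
    qe k Q M (jm k d hd) = jm k (pn Q * d) h := by
  apply Subtype.ext
  change Sb 1 (pn Q) (Jc 1 d) = Jc 1 (pn Q * d)
  rw [Sb_Jc, one_pow, one_mul]

theorem wq_incl (hN : ((Q * M : ℕ) : k) ≠ 0) (hco : Q.Coprime M) (x : FF k M) :
    wq hN hco (incl k (dvd_mul_left M Q) x) = qe k Q M x := by
  have h1 : (alHom hN hco).comp (incl k (dvd_mul_left M Q)) = qe k Q M := by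
    apply hom_ext
    intro d hd
    have h2 : ((1 * d : ℕ+) : ℕ) ∣ Q * M := by
      rw [one_mul]; exact hd.trans (dvd_mul_left M Q)
    have h3 : ((pn Q * d : ℕ+) : ℕ) ∣ Q * M := by
      rw [PNat.mul_coe, coe_pn]
      exact mul_dvd_mul_left Q hd
    have h4 := alHom_jm hN hco (r := 1) (r' := pn Q) (d := d) (by rw [PNat.one_coe, one_mul, coe_pn])
      hd h2 h3
    rw [AlgHom.comp_apply, incl_jm, qe_jm hd h3, ← h4]
    congr 1
    apply Subtype.ext
    change Jc 1 d = Jc 1 (1 * d)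
    rw [one_mul]
  exact AlgHom.congr_fun h1 x

theorem wq_qe (hN : ((Q * M : ℕ) : k) ≠ 0) (hco : Q.Coprime M) (x : FF k M) :
    wq hN hco (qe k Q M x) = incl k (dvd_mul_left M Q) x := by
  rw [← wq_incl hN hco, wq_wq]

end Emb

end Fermat.Agent.SemiSt
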