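import Fermat.Agent.SemiSt.Gauss

/-!
# Gauss data for modular function fields of semistable level
-/

set_option autoImplicit false
set_option linter.style.haveILetI false
set_option linter.unusedSectionVars false

noncomputable section

namespace Fermat.Agent.SemiSt

open ModularCurve Polynomial IntermediateField Fermat.Agent.ModPoly Fermat.Agent.Red
  Fermat.Agent.RedMod Fermat.Agent.Cusp

variable {A K k : Type*} [CommRing A] [IsDomain A] [ValuationRing A]
  [Field K] [IsAlgClosed K] [CharZero K] [Algebra A K] [IsFractionRing A K] [Field k] [Algebra A k]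
  {q M : ℕ} [hq : Fact q.Prime] [NeZero M] (hco : q.Coprime M)

variable (K) in
/-- the second embedding of the function field -/
def φ2 : FF K (q * M) →ₐ[K] LaurentSeries K :=
  (FF K (q * M)).val.comp (w K hco : FF K (q * M) →ₐ[K] FF K (q * M))

theorem φ2_apply (x : FF K (q * M)) : φ2 K hco x = (w K hco x : LaurentSeries K) := rfl

section WW

variable [Algebra A (FF K (q * M))] [IsScalarTower A K (FF K (q * M))]

variable (A K k) in
/-- the ring of functions regular at both generic points of the special fibre -/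
def WW : Subalgebra A (FF K (q * M)) := Wφ A k (FF K (q * M)).val ⊓ Wφ A k (φ2 K hco)

theorem mem_WW {x : FF K (q * M)} : x ∈ WW A K k hco ↔
    (x : LaurentSeries K) ∈ WL A K k ∧ (w K hco x : LaurentSeries K) ∈ WL A K k := Iff.rfl

theorem w_mem_WW {x : FF K (q * M)} (hx : x ∈ WW A K k hco) : w K hco x ∈ WW A K k hco := by
  rw [mem_WW] at hx ⊢
  exact ⟨hx.2, by rw [w_w]; exact hx.1⟩

theorem HasLift.mem {x : FF K (q * M)} {u v : LaurentSeries A} (h : HasLift A hco x u v) :
    x ∈ WW A K k hco :=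
  ⟨mem_Wφ_of_eq _ h.1, mem_Wφ_of_eq _ h.2⟩

variable (A K k) in
/-- the pair of reductions, as a ring homomorphism -/
def pp2 : WW A K k hco →+* LaurentSeries k × LaurentSeries k :=
  RingHom.prod ((πφ A k (FF K (q * M)).val).comp (Subalgebra.inclusion inf_le_left).toRingHom)
    ((πφ A k (φ2 K hco)).comp (Subalgebra.inclusion inf_le_right).toRingHom)

theorem pp2_fst {x : FF K (q * M)} (hx : x ∈ WW A K k hco) :
    (pp2 A K k hco ⟨x, hx⟩).1 = πL A K k ⟨x, hx.1⟩ := rfl

theorem pp2_snd {x : FF K (q * M)} (hx : x ∈ WW A K k hco) :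
    (pp2 A K k hco ⟨x, hx⟩).2 = πL A K k ⟨w K hco x, hx.2⟩ := rfl

theorem HasLift.pp2 {x : FF K (q * M)} {u v : LaurentSeries A} (h : HasLift A hco x u v)
    (hx : x ∈ WW A K k hco) : SemiSt.pp2 A K k hco ⟨x, hx⟩ = (redL A k u, redL A k v) :=
  Prod.ext (πφ_of_eq (FF K (q * M)).val h.1 hx.1) (πφ_of_eq (φ2 K hco) h.2 hx.2)

theorem pp2_algebraMap (a : A) : pp2 A K k hco (algebraMap A (WW A K k hco) a) =
    (HahnSeries.C (algebraMap A k a), HahnSeries.C (algebraMap A k a)) := by
  apply Prod.ext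
  · exact πφ_algebraMap (FF K (q * M)).val a
  · exact πφ_algebraMap (φ2 K hco) a

theorem isUnit_of_pp2 (x : WW A K k hco) (h1 : (pp2 A K k hco x).1 ≠ 0)
    (h2 : (pp2 A K k hco x).2 ≠ 0) : IsUnit x := by
  have hx0 : (x : FF K (q * M)) ≠ 0 := by
    intro h0
    apply h1
    have : x = 0 := Subtype.ext h0
    rw [this, map_zero]
    rfl
  have hinv : (x : FF K (q * M))⁻¹ ∈ WW A K k hco :=
    ⟨inv_mem_Wφ _ x.2.1 h1, inv_mem_Wφ _ x.2.2 h2⟩
  refine ⟨⟨x, ⟨(x : FF K (q * M))⁻¹, hinv⟩, ?_, ?_⟩, rfl⟩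
  · exact Subtype.ext (mul_inv_cancel₀ hx0)
  · exact Subtype.ext (inv_mul_cancel₀ hx0)

theorem isUnit_aeval_pair [CharP k q] {P : k[X]} (hP : P ≠ 0) :
    aeval (jqModC k) P ≠ 0 ∧ aeval (jqModC k ^ q) P ≠ 0 := by
  constructor
  · intro h0
    exact hP (aeval_jqModC_injective (h0.trans (map_zero _).symm))
  · intro h0
    rw [← expand_aeval] at h0
    have h1 := aeval_jqModC_injective (h0.trans (map_zero _).symm)
    exact hP (Polynomial.expand_injective hq.out.pos (h1.trans (map_zero _).symm))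

include hco in
theorem card_ι : Fintype.card (Fin (dedekindPsi M) ⊕ (Fin (dedekindPsi M) × Fin q)) =
    dedekindPsi (q * M) := by
  rw [Fintype.card_sum, Fintype.card_prod, Fintype.card_fin, Fintype.card_fin,
    dedekindPsi_mul_coprime hq.out.ne_zero M (NeZero.ne M) hco]
  have h2 := dedekindPsi_prime_pow hq.out 0
  rw [zero_add, pow_one, pow_zero, one_mul] at h2
  rw [h2]
  ring

instance nonempty_ι : Nonempty (Fin (dedekindPsi M) ⊕ (Fin (dedekindPsi M) × Fin q)) :=
  ⟨Sum.inl (Classical.arbitrary _)⟩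

section Pre

variable [Algebra A (LaurentSeries k)]
  (hT : ∀ a : A, algebraMap A (LaurentSeries k) a = algebraMap k (LaurentSeries k) (algebraMap A k a))
  [CharP k q] (hM : (M : k) ≠ 0)

variable (K) in
/-- Gauss data with values in pairs of Laurent series -/
def sg0 : GaussData A K (FF K (q * M)) k (LaurentSeries k × LaurentSeries k)
    (Fin (dedekindPsi M) ⊕ (Fin (dedekindPsi M) × Fin q)) where
  W := WW A K k hco
  π :=
    { pp2 A K k hco with
      commutes' := by
        intro a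
        refine (pp2_algebraMap hco a).trans ?_
        rw [Prod.algebraMap_apply, hT, algebraMap_eq_C] }
  t := jF' K (q * M)
  ht := (hasLift_jF (A := A) (hco := hco)).mem hco
  y := yy K q hco hM
  hy i := (hasLift_yy (A := A) (hco := hco) hM i).mem hco
  isUnit_of x hx := by
    have h1 := Prod.isUnit_iff.1 hx
    exact isUnit_of_pp2 hco x h1.1.ne_zero h1.2.ne_zero
  indep P hP := by
    rw [finsum_eq_sum_of_fintype] at hP
    refine indep_aux (k := k) (q := q) hM P ?_
    rw [← hP]
    refine Finset.sum_congr rfl fun i _ => ?_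
    congr 1
    · congr 2
      refine Eq.symm (((hasLift_jF (A := A) (hco := hco)).pp2 hco _).trans ?_)
      rw [coeffMap_qExpand, coeffMap_jqModC, qExpand_jqModC]
    · refine Eq.symm (((hasLift_yy (A := A) (hco := hco) hM i).pp2 hco _).trans ?_)
      exact redL_y hM i
  isUnit_t P hP := by
    have e1 : aeval (pp2 A K k hco ⟨jF' K (q * M), (hasLift_jF (A := A) (hco := hco)).mem hco⟩) P =
        (aeval (jqModC k) P, aeval (jqModC k ^ q) P) := by
      rw [(hasLift_jF (A := A) (hco := hco)).pp2 hco, aeval_prod, coeffMap_qExpand,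
        coeffMap_jqModC, qExpand_jqModC]
    have h2 := isUnit_aeval_pair (k := k) (q := q) hP
    exact (congrArg IsUnit e1).mpr (Prod.isUnit_iff.2 ⟨IsUnit.mk0 _ h2.1, IsUnit.mk0 _ h2.2⟩)

theorem sg0_W : (sg0 K hco hT hM).W = WW A K k hco := rfl

theorem sg0_t : (sg0 K hco hT hM).t = jF' K (q * M) := rfl

theorem sg0_π (x : FF K (q * M)) (hx : x ∈ WW A K k hco) :
    (sg0 K hco hT hM).π ⟨x, hx⟩ = pp2 A K k hco ⟨x, hx⟩ := rfl

theorem sg0_πt : (sg0 K hco hT hM).π ⟨(sg0 K hco hT hM).t, (sg0 K hco hT hM).ht⟩ =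
    (jqModC k, jqModC k ^ q) := by
  refine ((hasLift_jF (A := A) (hco := hco)).pp2 hco _).trans ?_
  rw [coeffMap_qExpand, coeffMap_jqModC, qExpand_jqModC]

theorem sg0_πy (i : Fin (dedekindPsi M) ⊕ (Fin (dedekindPsi M) × Fin q)) :
    (sg0 K hco hT hM).π ⟨(sg0 K hco hT hM).y i, (sg0 K hco hT hM).hy i⟩ = Sum.elim
      (fun i => (ub k q * cA hM k i, 0))
      (fun x => (0, ub k q * cA hM k x.1 * jqModC k ^ (x.2 : ℕ))) i :=
  ((hasLift_yy (A := A) (hco := hco) hM i).pp2 hco _).trans (redL_y hM i)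

include hT in
theorem algebraMap_pair (a : A) : algebraMap A (LaurentSeries k × LaurentSeries k) a =
    algebraMap k (LaurentSeries k × LaurentSeries k) (algebraMap A k a) := by
  rw [Prod.algebraMap_apply, Prod.algebraMap_apply, hT]

theorem sg0_span (x : FF K (q * M)) : ∃ P : K[X], P ≠ 0 ∧
    ∃ Q : Fin (dedekindPsi M) ⊕ (Fin (dedekindPsi M) × Fin q) → K[X],
      aeval (sg0 K hco hT hM).t P * x = (sg0 K hco hT hM).comb Q := by
  haveI := IsScalarTower.of_algebraMap_eq (algebraMap_pair hT)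
  haveI : FiniteDimensional K⟮(sg0 K hco hT hM).t⟯ (FF K (q * M)) :=
    finiteDimensional_E' (natCast_ne_zero_K K (q * M))
  apply GaussData.hspan_of_finrank
  rw [card_ι hco]
  exact finrank_E' (natCast_ne_zero_K K (q * M))

end Pre

end WW

end Fermat.Agent.SemiSt
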