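import Fermat.Agent.SemiSt.AL
import Fermat.Agent.RedMod.Good
import Fermat.Agent.HeckeProd.Formal
import Mathlib.Algebra.CharP.Lemmas

/-!
# Gauss data for modular function fields of semistable level
-/

set_option autoImplicit false
set_option linter.style.haveILetI false
set_option linter.unusedSectionVars false

noncomputable section

namespace Fermat.Agent.SemiSt

open ModularCurve Polynomial IntermediateField Fermat.Agent.ModPoly Fermat.Agent.Red
  Fermat.Agent.RedMod Fermat.Agent.Cusp

section Pre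

theorem aeval_prod {k R S : Type*} [Field k] [CommRing R] [CommRing S] [Algebra k R] [Algebra k S]
    (s : R × S) (P : k[X]) : aeval s P = (aeval s.1 P, aeval s.2 P) := by
  apply Prod.ext
  · exact (aeval_algHom_apply (AlgHom.fst k R S) s P).symm
  · exact (aeval_algHom_apply (AlgHom.snd k R S) s P).symm

/-- independence of `1, X, …, X^(q-1)` over `k[X^q]` -/
theorem eq_zero_of_sum_expand {k : Type*} [Field k] {q : ℕ} (hq : 0 < q) (P : Fin q → k[X])
    (h : ∑ a, expand k q (P a) * X ^ (a : ℕ) = 0) (a : Fin q) : P a = 0 := by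
  ext n
  have h1 := congrArg (fun p => Polynomial.coeff p (n * q + a)) h
  simp only [finsetSum_coeff, coeff_zero, coeff_mul_X_pow'] at h1
  rw [Finset.sum_eq_single a] at h1
  · rw [if_pos (Nat.le_add_left _ _), Nat.add_sub_cancel, coeff_expand_mul hq] at h1
    rw [h1, coeff_zero]
  · intro b _ hb
    split_ifs with h2
    · rw [coeff_expand hq, if_neg]
      rintro ⟨c, hc⟩
      apply hb
      have h3 : n * q + a = q * c + b := by omega
      have h4 := congrArg (fun x => x % q) h3
      simp only [Nat.add_mod, Nat.mul_mod_left, Nat.mul_mod_right, zero_add,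
        Nat.mod_eq_of_lt a.2, Nat.mod_eq_of_lt b.2] at h4
      exact Fin.ext h4.symm
    · rfl
  · intro h2
    exact absurd (Finset.mem_univ a) h2

variable {A K k : Type*} [CommRing A] [IsDomain A]
  [Field K] [Algebra A K] [IsFractionRing A K] [Field k] [Algebra A k] {q : ℕ} [NeZero q]

theorem qExpand_mem_WL {x : LaurentSeries K} (hx : x ∈ WL A K k) :
    qExpand K q x ∈ WL A K k := by
  obtain ⟨u, v, hv, h⟩ := mem_WL.1 hx
  refine ⟨qExpand A q u, qExpand A q v, ?_, ?_⟩
  · rw [redL, coeffMap_qExpand]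
    exact fun h0 => hv ((map_eq_zero _).1 h0)
  · rw [incL, coeffMap_qExpand, coeffMap_qExpand, ← map_mul, ← h]

theorem πL_qExpand {x : LaurentSeries K} (hx : x ∈ WL A K k) (hx' : qExpand K q x ∈ WL A K k) :
    πL A K k ⟨qExpand K q x, hx'⟩ = qExpand k q (πL A K k ⟨x, hx⟩) := by
  obtain ⟨u, v, hv, h⟩ := mem_WL.1 hx
  have hv' : redL A k (qExpand A q v) ≠ 0 := by
    rw [redL, coeffMap_qExpand]
    exact fun h0 => hv ((map_eq_zero _).1 h0)
  rw [πL_eq ⟨x, hx⟩ hv h, πL_eq ⟨qExpand K q x, hx'⟩ (u := qExpand A q u) (v := qExpand A q v) hv'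
    (by rw [incL, coeffMap_qExpand, coeffMap_qExpand, ← map_mul, ← h]), map_div₀, redL,
    coeffMap_qExpand, coeffMap_qExpand]

theorem qExpand_jqModC [Fact q.Prime] [CharP k q] : qExpand k q (jqModC k) = jqModC k ^ q := by
  rw [HeckeProd.pow_eq_qExpand q, HeckeProd.Fr, coeffMap_jqModC]

theorem qExpand_cst [Fact q.Prime] [CharP k q] (z : LaurentSeries ℤ) :
    qExpand k q (cst k z) = cst k z ^ q := by
  rw [HeckeProd.pow_eq_qExpand q, HeckeProd.Fr, coeffMap_cst]

theorem coprime_of_natCast_ne_zero {k : Type*} [Field k] {q M : ℕ} [hq : Fact q.Prime] [CharP k q]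
    (hM : (M : k) ≠ 0) : q.Coprime M := by
  rw [Nat.Prime.coprime_iff_not_dvd hq.out]
  intro h
  exact hM ((CharP.cast_eq_zero_iff k q M).2 h)

end Pre

section Main

variable {A K k : Type*} [CommRing A] [IsDomain A] [ValuationRing A]
  [Field K] [IsAlgClosed K] [CharZero K] [Algebra A K] [IsFractionRing A K] [Field k] [Algebra A k]
  {q M : ℕ} [hq : Fact q.Prime] [NeZero M]

theorem natCast_ne_zero_K (K : Type*) [Field K] [CharZero K] (N : ℕ) [NeZero N] : (N : K) ≠ 0 :=
  Nat.cast_ne_zero.2 (NeZero.ne N)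

variable (K) in
/-- the Atkin-Lehner involution in characteristic zero -/
def w (hco : q.Coprime M) : FF K (q * M) ≃ₐ[K] FF K (q * M) := wq (natCast_ne_zero_K K (q * M)) hco

theorem w_w (hco : q.Coprime M) (x : FF K (q * M)) : w K hco (w K hco x) = x := wq_wq _ hco x

theorem w_incl (hco : q.Coprime M) (x : FF K M) :
    w K hco (incl K (dvd_mul_left M q) x) = qe K q M x := wq_incl _ hco x

theorem w_qe (hco : q.Coprime M) (x : FF K M) :
    w K hco (qe K q M x) = incl K (dvd_mul_left M q) x := wq_qe _ hco x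

variable (hco : q.Coprime M)

variable (A) in
/-- integral lifts of the two expansions -/
def HasLift (x : FF K (q * M)) (u v : LaurentSeries A) : Prop :=
  (x : LaurentSeries K) = incL A K u ∧ (w K hco x : LaurentSeries K) = incL A K v

variable {hco}

theorem HasLift.mul {x y : FF K (q * M)} {u v u' v' : LaurentSeries A}
    (h : HasLift A hco x u v) (h' : HasLift A hco y u' v') :
    HasLift A hco (x * y) (u * u') (v * v') := by
  refine ⟨?_, ?_⟩
  · rw [map_mul, ← h.1, ← h'.1]; rfl
  · rw [map_mul, map_mul, ← h.2, ← h'.2]; rfl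

theorem HasLift.sub {x y : FF K (q * M)} {u v u' v' : LaurentSeries A}
    (h : HasLift A hco x u v) (h' : HasLift A hco y u' v') :
    HasLift A hco (x - y) (u - u') (v - v') := by
  refine ⟨?_, ?_⟩
  · rw [map_sub, ← h.1, ← h'.1]; rfl
  · have := (w K hco).toRingEquiv.toRingHom.map_sub x y
    change w K hco (x - y) = w K hco x - w K hco y at this
    rw [this, map_sub, ← h.2, ← h'.2]; rfl

theorem HasLift.pow {x : FF K (q * M)} {u v : LaurentSeries A}
    (h : HasLift A hco x u v) (n : ℕ) : HasLift A hco (x ^ n) (u ^ n) (v ^ n) := by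
  refine ⟨?_, ?_⟩
  · rw [map_pow, ← h.1]; rfl
  · rw [map_pow, map_pow, ← h.2]; rfl

theorem HasLift.w {x : FF K (q * M)} {u v : LaurentSeries A}
    (h : HasLift A hco x u v) : HasLift A hco (SemiSt.w K hco x) v u :=
  ⟨h.2, by rw [w_w]; exact h.1⟩

theorem HasLift.incl {x : FF K M} {u : LaurentSeries A} (h : (x : LaurentSeries K) = incL A K u) :
    HasLift A hco (Cusp.incl K (dvd_mul_left M q) x) u (qExpand A q u) := by
  refine ⟨?_, ?_⟩
  · rw [coe_incl, h]
  · rw [w_incl, coe_qe, h, incL, coeffMap_qExpand]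

theorem hasLift_jF : HasLift A hco (jF' K (q * M)) (jqModC A) (qExpand A q (jqModC A)) := by
  have h1 : ((jF' K M : FF K M) : LaurentSeries K) = incL A K (jqModC A) := by
    rw [coeffMap_jqModC]
    exact Jc_one_one
  have h2 := HasLift.incl (A := A) (hco := hco) h1
  rwa [incl_jF] at h2

variable (K q M) in
/-- the function `j - j(q^q)^q` -/
def uu : FF K (q * M) := jF' K (q * M) - (qe K q M (jF' K M)) ^ q

variable (A q) in
/-- the first expansion of `uu` -/
def uA : LaurentSeries A := jqModC A - qExpand A q (jqModC A) ^ q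

variable (A q) in
/-- the second expansion of `uu` -/
def uA' : LaurentSeries A := qExpand A q (jqModC A) - jqModC A ^ q

theorem hasLift_uu : HasLift A hco (uu K q M) (uA A q) (uA' A q) := by
  have h1 := hasLift_jF (A := A) (K := K) (hco := hco)
  have h2 := h1.w
  have h3 : SemiSt.w K hco (jF' K (q * M)) = qe K q M (jF' K M) := by
    rw [← w_incl hco, incl_jF]
  rw [h3] at h2
  exact h1.sub (h2.pow q)

variable (hM : (M : k) ≠ 0)

variable (K) in
/-- the monomials at level `M` -/
def mi (i : Fin (dedekindPsi M)) : FF K M := ⟨cst K (monos hM i), cst_mem_FF (monos_mem hM i)⟩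

/-- integral expansion -/
def cA (A : Type*) [CommRing A] (i : Fin (dedekindPsi M)) : LaurentSeries A := cst A (monos hM i)

theorem hasLift_mi (i : Fin (dedekindPsi M)) :
    HasLift A hco (Cusp.incl K (dvd_mul_left M q) (mi K hM i)) (cA hM A i)
      (qExpand A q (cA hM A i)) :=
  HasLift.incl (val_mono (monos_mem hM i))

variable (K q hco) in
/-- the family of generators -/
def yy : Fin (dedekindPsi M) ⊕ (Fin (dedekindPsi M) × Fin q) → FF K (q * M)
  | Sum.inl i => uu K q M * Cusp.incl K (dvd_mul_left M q) (mi K hM i)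
  | Sum.inr (i, a) => SemiSt.w K hco (uu K q M * Cusp.incl K (dvd_mul_left M q) (mi K hM i) *
      jF' K (q * M) ^ (a : ℕ))

variable (A q) in
/-- expansions of the generators -/
def y1 : Fin (dedekindPsi M) ⊕ (Fin (dedekindPsi M) × Fin q) → LaurentSeries A
  | Sum.inl i => uA A q * cA hM A i
  | Sum.inr (i, a) => uA' A q * qExpand A q (cA hM A i) * qExpand A q (jqModC A) ^ (a : ℕ)

variable (A q) in
/-- expansions of the generators -/
def y2 : Fin (dedekindPsi M) ⊕ (Fin (dedekindPsi M) × Fin q) → LaurentSeries A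
  | Sum.inl i => uA' A q * qExpand A q (cA hM A i)
  | Sum.inr (i, a) => uA A q * cA hM A i * jqModC A ^ (a : ℕ)

theorem hasLift_yy (i : Fin (dedekindPsi M) ⊕ (Fin (dedekindPsi M) × Fin q)) :
    HasLift A hco (yy K q hco hM i) (y1 A q hM i) (y2 A q hM i) := by
  rcases i with i | ⟨i, a⟩
  · exact hasLift_uu.mul (hasLift_mi hM i)
  · exact ((hasLift_uu.mul (hasLift_mi hM i)).mul (hasLift_jF.pow a)).w

/-! ### Reductions -/

section Char

variable [CharP k q]

variable (k q) in
/-- the reduction of `uA` -/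
def ub : LaurentSeries k := jqModC k - jqModC k ^ (q * q)

theorem redL_uA : redL A k (uA A q) = ub k q := by
  rw [uA, ub, map_sub, map_pow, coeffMap_qExpand, coeffMap_jqModC, qExpand_jqModC, ← pow_mul]

theorem redL_uA' : redL A k (uA' A q) = 0 := by
  rw [uA', map_sub, map_pow, coeffMap_qExpand, coeffMap_jqModC, qExpand_jqModC, sub_self]

theorem ub_ne_zero : ub k q ≠ 0 := by
  have h1 : ub k q = aeval (jqModC k) (X - X ^ (q * q) : k[X]) := by
    rw [map_sub, map_pow, aeval_X, ub]
  rw [h1]
  intro h0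
  have h2 := aeval_jqModC_injective (h0.trans (map_zero _).symm)
  have h3 := congrArg (fun p => Polynomial.coeff p 1) h2
  have h4 := hq.out.one_lt
  simp only [coeff_sub, coeff_X_one, coeff_X_pow, coeff_zero] at h3
  rw [if_neg (by nlinarith), sub_zero] at h3
  exact one_ne_zero h3

/-- the reductions of the generators -/
theorem redL_y (i : Fin (dedekindPsi M) ⊕ (Fin (dedekindPsi M) × Fin q)) :
    (redL A k (y1 A q hM i), redL A k (y2 A q hM i)) = Sum.elim
      (fun i => (ub k q * cA hM k i, 0))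
      (fun x => (0, ub k q * cA hM k x.1 * jqModC k ^ (x.2 : ℕ))) i := by
  rcases i with i | ⟨i, a⟩
  · simp only [y1, y2, Sum.elim_inl, cA]
    rw [map_mul, redL_uA, coeffMap_cst, map_mul, redL_uA', zero_mul]
  · simp only [y1, y2, Sum.elim_inr, cA]
    rw [map_mul, map_mul, redL_uA', zero_mul, zero_mul, map_mul, map_mul, redL_uA, coeffMap_cst,
      map_pow, coeffMap_jqModC]

/-- independence of the reductions -/
theorem indep_aux (P : Fin (dedekindPsi M) ⊕ (Fin (dedekindPsi M) × Fin q) → k[X])
    (h : ∑ i, aeval ((jqModC k, jqModC k ^ q) : LaurentSeries k × LaurentSeries k) (P i) *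
      (Sum.elim (fun i => (ub k q * cA hM k i, 0))
        (fun x => (0, ub k q * cA hM k x.1 * jqModC k ^ (x.2 : ℕ))) i :
          LaurentSeries k × LaurentSeries k) = 0) : P = 0 := by
  rw [Fintype.sum_sum_type] at h
  simp only [aeval_prod, Sum.elim_inl, Sum.elim_inr, Prod.mk_mul_mk, mul_zero] at h
  have h1 := congrArg Prod.fst h
  have h2 := congrArg Prod.snd h
  simp only [Prod.fst_add, Prod.snd_add, Prod.fst_sum, Prod.snd_sum, Finset.sum_const_zero,
    add_zero, zero_add, Prod.fst_zero, Prod.snd_zero] at h1 h2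
  have hub := ub_ne_zero (k := k) (q := q)
  funext i
  rcases i with i | ⟨i, a⟩
  · refine monos_indep hM (fun i => P (Sum.inl i)) ?_ i
    apply mul_left_cancel₀ hub
    rw [mul_zero, ← h1, Finset.mul_sum]
    refine Finset.sum_congr rfl fun i _ => ?_
    rw [evT_eq_aeval, cA]
    ring
  · have h3 : ∀ i, ∑ a, expand k q (P (Sum.inr (i, a))) * X ^ (a : ℕ) = 0 := by
      refine monos_indep hM (fun i => ∑ a, expand k q (P (Sum.inr (i, a))) * X ^ (a : ℕ)) ?_
      apply mul_left_cancel₀ hub
      rw [mul_zero, ← h2, Finset.mul_sum, Fintype.sum_prod_type]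
      refine Finset.sum_congr rfl fun i _ => ?_
      rw [evT_eq_aeval, map_sum, Finset.sum_mul, Finset.mul_sum]
      refine Finset.sum_congr rfl fun a _ => ?_
      rw [map_mul, map_pow, aeval_X, expand_aeval, cA]
      ring
    exact eq_zero_of_sum_expand hq.out.pos _ (h3 i) a

end Char

end Main

end Fermat.Agent.SemiSt
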