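import Fermat.Agent.Red.Gauss

/-!
# Scaling in Gauss data
-/

set_option autoImplicit false
set_option linter.unusedSectionVars false
set_option linter.style.haveILetI false

namespace Fermat.Agent.SemiSt

open Module Polynomial Fermat.Agent.Red

variable {A K F k R : Type*} [CommRing A] [IsDomain A] [ValuationRing A]
  [Field K] [Algebra A K] [IsFractionRing A K] [Field F] [Algebra K F] [Algebra A F]
  [IsScalarTower A K F] [Field k] [Algebra A k] [CommRing R] [Algebra k R] [Algebra A R]
  [IsScalarTower A k R] {ι : Type*} [Fintype ι] (G : GaussData A K F k R ι)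

/-- every nonzero element becomes a unit-like element after multiplication by a constant -/
theorem exists_scale
    (hspan : ∀ x : F, ∃ q : K[X], q ≠ 0 ∧ ∃ P : ι → K[X], aeval G.t q * x = G.comb P)
    {x : F} (hx : x ≠ 0) : ∃ c : K, c ≠ 0 ∧ ∃ h : algebraMap K F c * x ∈ G.W, G.π ⟨_, h⟩ ≠ 0 := by
  obtain ⟨q, hq, P, hP⟩ := G.exists_primitive_repr hspan x
  have hq0 := G.aeval_ne_zero hq
  have hP' : ∃ i, P i ≠ 0 := by
    by_contra hc
    push Not at hc
    have h1 : G.comb P = 0 := by
      rw [GaussData.comb]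
      exact Finset.sum_eq_zero fun i _ => by rw [hc i, map_zero, zero_mul]
    rw [h1] at hP
    exact mul_ne_zero hq0 hx hP
  obtain ⟨a, b, ha, hb, Q, hQ, i, e, hie⟩ := exists_primitive A K P hP'
  have ha' : algebraMap A K a ≠ 0 := by simpa using ha
  have hb' : algebraMap A K b ≠ 0 := by simpa using hb
  have hb'' : algebraMap K F (algebraMap A K b) ≠ 0 := by simpa using hb'
  have e1 : algebraMap K F (algebraMap A K b) * G.comb (fun i => (Q i).map (algebraMap A K)) =
      algebraMap K F (algebraMap A K a) * G.comb P := by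
    simp only [GaussData.comb, Finset.mul_sum]
    refine Finset.sum_congr rfl fun i _ => ?_
    have := congrArg (aeval G.t) (hQ i)
    simp only [map_mul, aeval_C] at this
    rw [← mul_assoc, ← mul_assoc, this]
  have e2 : algebraMap K F (algebraMap A K a / algebraMap A K b) * x =
      (aeval G.t q)⁻¹ * (G.combW Q : F) := by
    rw [G.coe_combW, map_div₀]
    field_simp
    rw [e1, ← hP]
    ring
  have hu := G.isUnit_aeval hq
  have hinv : (aeval G.t q)⁻¹ ∈ G.W := by
    obtain ⟨u, hu⟩ := hu
    have h1 : ((u : G.W) : F) = aeval G.t q := by rw [hu, G.coe_aeval]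
    have h2 : ((↑u⁻¹ : G.W) : F) = (aeval G.t q)⁻¹ := by
      rw [← h1]
      apply eq_inv_of_mul_eq_one_left
      rw [← MulMemClass.coe_mul, Units.inv_mul]
      rfl
    rw [← h2]
    exact SetLike.coe_mem _
  have hmem : algebraMap K F (algebraMap A K a / algebraMap A K b) * x ∈ G.W := by
    rw [e2]
    exact mul_mem hinv (SetLike.coe_mem _)
  refine ⟨algebraMap A K a / algebraMap A K b, div_ne_zero ha' hb', hmem, ?_⟩
  intro h0
  have e3 : G.combW Q = aeval (⟨G.t, G.ht⟩ : G.W) q * ⟨_, hmem⟩ := by
    apply Subtype.ext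
    rw [MulMemClass.coe_mul, G.coe_aeval]
    change (G.combW Q : F) = aeval G.t q * (algebraMap K F _ * x)
    rw [e2, ← mul_assoc, mul_inv_cancel₀ hq0, one_mul]
  have h4 : G.π (G.combW Q) = 0 := by rw [e3, map_mul, h0, mul_zero]
  have h5 := G.eq_zero_of_π_combW h4 i
  have h6 := congrArg (fun p => Polynomial.coeff p e) h5
  simp only [coeff_map, hie, map_one, coeff_zero] at h6
  exact one_ne_zero h6

end Fermat.Agent.SemiSt
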