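import Fermat.Agent.SemiSt.Data
import Fermat.Agent.SemiSt.Scale

/-!
# Reductions of functions of semistable level
-/

set_option autoImplicit false
set_option linter.style.haveILetI false
set_option linter.unusedSectionVars false

noncomputable section

namespace Fermat.Agent.SemiSt

open ModularCurve Polynomial IntermediateField Fermat.Agent.ModPoly Fermat.Agent.Red
  Fermat.Agent.RedMod Fermat.Agent.Cusp

section Units

variable {A K k : Type*} [CommRing A] [IsDomain A] [ValuationRing A]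
  [Field K] [Algebra A K] [IsFractionRing A K] [Field k] [Algebra A k]

variable (A K k) in
/-- unit of the Gauss ring, in the sense of nonzero reduction -/
def IsU (x : LaurentSeries K) : Prop := ∃ h : x ∈ WL A K k, πL A K k ⟨x, h⟩ ≠ 0

theorem IsU.ne_zero {x : LaurentSeries K} (h : IsU A K k x) : x ≠ 0 := by
  rintro rfl
  obtain ⟨h1, h2⟩ := h
  exact h2 (map_zero _)

theorem IsU.inv {x : LaurentSeries K} (h : IsU A K k x) : IsU A K k x⁻¹ := by
  obtain ⟨h1, h2⟩ := h
  have h3 := inv_mem_WL h1 h2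
  refine ⟨h3, ?_⟩
  intro h0
  have hx : x ≠ 0 := IsU.ne_zero ⟨h1, h2⟩
  have h4 : (⟨x, h1⟩ * ⟨x⁻¹, h3⟩ : WL A K k) = 1 := Subtype.ext (mul_inv_cancel₀ hx)
  have h5 := congrArg (πL A K k) h4
  rw [map_mul, h0, mul_zero, map_one] at h5
  exact zero_ne_one h5

theorem πL_inv {x : LaurentSeries K} (h1 : x ∈ WL A K k) (h3 : x⁻¹ ∈ WL A K k) (hx : x ≠ 0) :
    πL A K k ⟨x⁻¹, h3⟩ = (πL A K k ⟨x, h1⟩)⁻¹ := by
  have h4 : (⟨x, h1⟩ * ⟨x⁻¹, h3⟩ : WL A K k) = 1 := Subtype.ext (mul_inv_cancel₀ hx)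
  have h5 := congrArg (πL A K k) h4
  rw [map_mul, map_one] at h5
  exact eq_inv_of_mul_eq_one_right h5

theorem IsU.mul {x y : LaurentSeries K} (h : IsU A K k x) (h' : IsU A K k y) :
    IsU A K k (x * y) := by
  obtain ⟨h1, h2⟩ := h
  obtain ⟨h3, h4⟩ := h'
  refine ⟨mul_mem h1 h3, ?_⟩
  have e : (⟨x * y, mul_mem h1 h3⟩ : WL A K k) = ⟨x, h1⟩ * ⟨y, h3⟩ := Subtype.ext rfl
  rw [e, map_mul]
  exact mul_ne_zero h2 h4

theorem isU_C_inv {c : K} (hk : Function.Surjective (algebraMap A k))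
    (h : ¬ ∃ a : A, algebraMap A K a = c⁻¹) : ∃ a : A, algebraMap A K a = c ∧ algebraMap A k a = 0 := by
  obtain ⟨a, ha⟩ : ∃ a : A, algebraMap A K a = c := by
    rcases ValuationRing.isInteger_or_isInteger A c with h1 | h1
    · exact h1
    · exact absurd h1 h
  refine ⟨a, ha, ?_⟩
  by_contra h0
  obtain ⟨u, rfl⟩ := isUnit_of_red_ne_zero hk h0
  apply h
  refine ⟨↑u⁻¹, ?_⟩
  rw [← ha]
  apply eq_inv_of_mul_eq_one_left
  rw [← map_mul, Units.inv_mul, map_one]

end Units

section Main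

variable {A K k : Type*} [CommRing A] [IsDomain A] [ValuationRing A]
  [Field K] [IsAlgClosed K] [CharZero K] [Algebra A K] [IsFractionRing A K] [Field k] [Algebra A k]
  {q M : ℕ} [hq : Fact q.Prime] [NeZero M] (hco : q.Coprime M) [CharP k q] (hM : (M : k) ≠ 0)

section First

include hco hM

theorem jqModC_mem : jqModC k ∈ FF k M := (Jc_one_one (k := k)) ▸ Jc_one_mem (one_dvd M)

theorem aeval_mem' {E : IntermediateField k (LaurentSeries k)} {x : LaurentSeries k} (hx : x ∈ E)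
    (P : k[X]) : aeval x P ∈ E := by
  rw [aeval_eq_sum_range]
  refine sum_mem fun i _ => ?_
  rw [Algebra.smul_def]
  exact mul_mem (E.algebraMap_mem _) (pow_mem hx i)

/-- the reductions of the elements of `WW` -/
theorem mem_of_WW (hk : Function.Surjective (algebraMap A k)) (x : FF K (q * M))
    (h1 : (x : LaurentSeries K) ∈ WL A K k) (h2 : (w K hco x : LaurentSeries K) ∈ WL A K k) :
    πL A K k ⟨x, h1⟩ ∈ FF k M ∧ πL A K k ⟨w K hco x, h2⟩ ∈ FF k M := by
  letI : Algebra A (LaurentSeries k) :=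
    ((algebraMap k (LaurentSeries k)).comp (algebraMap A k)).toAlgebra
  letI : Algebra A (FF K (q * M)) := ((algebraMap K (FF K (q * M))).comp (algebraMap A K)).toAlgebra
  haveI : IsScalarTower A K (FF K (q * M)) := IsScalarTower.of_algebraMap_eq fun a => rfl
  have hT : ∀ a : A, algebraMap A (LaurentSeries k) a =
    algebraMap k (LaurentSeries k) (algebraMap A k a) := fun a => rfl
  haveI := IsScalarTower.of_algebraMap_eq (algebraMap_pair hT)
  have hx : x ∈ WW A K k hco := ⟨h1, h2⟩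
  obtain ⟨P, hP, Q, hQ⟩ := (sg0 K hco hT hM).π_repr hk (sg0_span hco hT hM) ⟨x, hx⟩
  rw [sg0_πt, sg0_π, aeval_prod] at hQ
  simp only [sg0_πy] at hQ
  have h3 := isUnit_aeval_pair (k := k) (q := q) hP
  have hj : jqModC k ∈ FF k M := jqModC_mem hco hM
  have hjq : jqModC k ^ q ∈ FF k M := pow_mem hj q
  have hub : ub k q ∈ FF k M := sub_mem hj (pow_mem hj _)
  have hc : ∀ i, cA hM k i ∈ FF k M := fun i => cst_mem_FF (monos_mem hM i)
  have e1 := congrArg Prod.fst hQ
  have e2 := congrArg Prod.snd hQ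
  rw [Prod.fst_mul, Prod.fst_sum] at e1
  rw [Prod.snd_mul, Prod.snd_sum] at e2
  constructor
  · have h4 : aeval (jqModC k) P * πL A K k ⟨x, h1⟩ ∈ FF k M := by
      have h5 : aeval (jqModC k) P * πL A K k ⟨x, h1⟩ = _ := e1
      rw [h5]
      refine sum_mem fun i _ => ?_
      rw [Prod.fst_mul, aeval_prod]
      refine mul_mem (aeval_mem' hco hM hj _) ?_
      rcases i with i | ⟨i, a⟩
      · exact mul_mem hub (hc i)
      · exact zero_mem _
    have h6 := mul_mem (inv_mem (aeval_mem' hco hM hj P)) h4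
    rwa [← mul_assoc, inv_mul_cancel₀ h3.1, one_mul] at h6
  · have h4 : aeval (jqModC k ^ q) P * πL A K k ⟨w K hco x, h2⟩ ∈ FF k M := by
      have h5 : aeval (jqModC k ^ q) P * πL A K k ⟨w K hco x, h2⟩ = _ := e2
      rw [h5]
      refine sum_mem fun i _ => ?_
      rw [Prod.snd_mul, aeval_prod]
      refine mul_mem (aeval_mem' hco hM hjq _) ?_
      rcases i with i | ⟨i, a⟩
      · exact zero_mem _
      · exact mul_mem (mul_mem hub (hc i)) (pow_mem hj _)
    have h6 := mul_mem (inv_mem (aeval_mem' hco hM hjq P)) h4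
    rwa [← mul_assoc, inv_mul_cancel₀ h3.2, one_mul] at h6


end First

section Comp

theorem val_algebraMap_mul (c : K) (x : FF K (q * M)) :
    ((algebraMap K (FF K (q * M)) c * x : FF K (q * M)) : LaurentSeries K) =
      HahnSeries.C c * (x : LaurentSeries K) := by
  rw [← algebraMap_eq_C]
  rfl

theorem w_algebraMap_mul (c : K) (x : FF K (q * M)) :
    (w K hco (algebraMap K (FF K (q * M)) c * x) : LaurentSeries K) =
      HahnSeries.C c * (w K hco x : LaurentSeries K) := by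
  rw [map_mul, AlgEquiv.commutes, val_algebraMap_mul]

include hM in
/-- scaling for the pair of valuations -/
theorem exists_scale_pair {x : FF K (q * M)} (hx : x ≠ 0) :
    ∃ c : K, c ≠ 0 ∧ ∃ (h1 : HahnSeries.C c * (x : LaurentSeries K) ∈ WL A K k)
      (h2 : HahnSeries.C c * (w K hco x : LaurentSeries K) ∈ WL A K k),
      πL A K k ⟨_, h1⟩ ≠ 0 ∨ πL A K k ⟨_, h2⟩ ≠ 0 := by
  letI : Algebra A (LaurentSeries k) :=
    ((algebraMap k (LaurentSeries k)).comp (algebraMap A k)).toAlgebra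
  letI : Algebra A (FF K (q * M)) := ((algebraMap K (FF K (q * M))).comp (algebraMap A K)).toAlgebra
  haveI : IsScalarTower A K (FF K (q * M)) := IsScalarTower.of_algebraMap_eq fun a => rfl
  have hT : ∀ a : A, algebraMap A (LaurentSeries k) a =
    algebraMap k (LaurentSeries k) (algebraMap A k a) := fun a => rfl
  haveI := IsScalarTower.of_algebraMap_eq (algebraMap_pair hT)
  obtain ⟨c, hc, h, h'⟩ := exists_scale (sg0 K hco hT hM) (sg0_span hco hT hM) hx
  have e1 := val_algebraMap_mul (q := q) (M := M) c x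
  have e2 := w_algebraMap_mul hco c x
  have h1 : HahnSeries.C c * (x : LaurentSeries K) ∈ WL A K k := e1 ▸ h.1
  have h2 : HahnSeries.C c * (w K hco x : LaurentSeries K) ∈ WL A K k := e2 ▸ h.2
  refine ⟨c, hc, h1, h2, ?_⟩
  by_contra hcon
  push Not at hcon
  apply h'
  change pp2 A K k hco ⟨_, h⟩ = 0
  have g1 : (⟨_, h.1⟩ : WL A K k) = ⟨_, h1⟩ := Subtype.ext e1
  have g2 : (⟨_, h.2⟩ : WL A K k) = ⟨_, h2⟩ := Subtype.ext e2
  apply Prod.ext
  · exact (congrArg (πL A K k) g1).trans hcon.1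
  · exact (congrArg (πL A K k) g2).trans hcon.2

include hco hM in
/-- **scaling** for the valuation at `∞` -/
theorem exists_scale_one {x : FF K (q * M)} (hx : x ≠ 0) :
    ∃ c : K, c ≠ 0 ∧ IsU A K k (HahnSeries.C c * (x : LaurentSeries K)) := by
  obtain ⟨c₁, hc₁, h1, h2, h3⟩ := exists_scale_pair (A := A) hco hM hx
  by_cases h4 : πL A K k ⟨_, h1⟩ = 0
  swap
  · exact ⟨c₁, hc₁, h1, h4⟩
  have h5 : πL A K k ⟨_, h2⟩ ≠ 0 := by
    rcases h3 with h3 | h3
    · exact absurd h4 h3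
    · exact h3
  -- the inverse
  set y : FF K (q * M) := algebraMap K (FF K (q * M)) c₁ * x with hy
  have hy0 : y ≠ 0 := mul_ne_zero (by simpa using hc₁) hx
  have e1 : (y : LaurentSeries K) = HahnSeries.C c₁ * (x : LaurentSeries K) :=
    val_algebraMap_mul c₁ x
  have e2 : (w K hco y : LaurentSeries K) = HahnSeries.C c₁ * (w K hco x : LaurentSeries K) :=
    w_algebraMap_mul hco c₁ x
  obtain ⟨c₂, hc₂, g1, g2, g3⟩ := exists_scale_pair (A := A) hco hM (inv_ne_zero hy0)
  by_cases h6 : πL A K k ⟨_, g1⟩ = 0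
  · exfalso
    -- then `c₂` is a unit for the second valuation
    have h7 : πL A K k ⟨_, g2⟩ ≠ 0 := by
      rcases g3 with g3 | g3
      · exact absurd h6 g3
      · exact g3
    have h8 : IsU A K k (HahnSeries.C c₂) := by
      have := IsU.mul (A := A) (k := k) ⟨g2, h7⟩ ⟨h2, h5⟩
      rw [← e2] at this
      have e3 : HahnSeries.C c₂ * ((w K hco y⁻¹ : FF K (q * M)) : LaurentSeries K) *
          (w K hco y : LaurentSeries K) = HahnSeries.C c₂ := by
        rw [mul_assoc]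
        have e4 : ((w K hco y⁻¹ : FF K (q * M)) : LaurentSeries K) *
          (w K hco y : LaurentSeries K) = 1 := by
          rw [← MulMemClass.coe_mul, ← map_mul, inv_mul_cancel₀ hy0, map_one]
          rfl
        rw [e4, mul_one]
      rwa [e3] at this
    obtain ⟨h9, h10⟩ := h8
    apply h10
    have e5 : (⟨HahnSeries.C c₂, h9⟩ : WL A K k) = ⟨_, g1⟩ * ⟨_, h1⟩ := by
      apply Subtype.ext
      change HahnSeries.C c₂ = HahnSeries.C c₂ * ((y⁻¹ : FF K (q * M)) : LaurentSeries K) *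
        (HahnSeries.C c₁ * (x : LaurentSeries K))
      rw [← e1, mul_assoc, ← MulMemClass.coe_mul, inv_mul_cancel₀ hy0]
      exact (mul_one _).symm
    rw [e5, map_mul, h6, zero_mul]
  · have h7 := IsU.inv (A := A) (k := k) ⟨g1, h6⟩
    refine ⟨c₂⁻¹ * c₁, mul_ne_zero (inv_ne_zero hc₂) hc₁, ?_⟩
    have e3 : (HahnSeries.C c₂ * ((y⁻¹ : FF K (q * M)) : LaurentSeries K))⁻¹ =
        HahnSeries.C (c₂⁻¹ * c₁) * (x : LaurentSeries K) := by
      have e4 : ((y⁻¹ : FF K (q * M)) : LaurentSeries K) = (y : LaurentSeries K)⁻¹ := rfl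
      rw [mul_inv, e4, inv_inv, e1, map_mul, map_inv₀, mul_assoc]
    rwa [e3] at h7

include hco hM in
/-- the Gauss ring at `∞` is a valuation ring of the function field -/
theorem inv_mem_of_not_mem (hk : Function.Surjective (algebraMap A k)) {x : FF K (q * M)}
    (hx : (x : LaurentSeries K) ∉ WL A K k) :
    ∃ h : (x : LaurentSeries K)⁻¹ ∈ WL A K k, πL A K k ⟨_, h⟩ = 0 := by
  have hx0 : x ≠ 0 := by
    rintro rfl
    exact hx (zero_mem _)
  have hx0' : (x : LaurentSeries K) ≠ 0 := fun h => hx0 (Subtype.ext h)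
  obtain ⟨c, hc, hu⟩ := exists_scale_one (A := A) hco hM hx0
  have hC : (HahnSeries.C c : LaurentSeries K) ≠ 0 := by
    rw [Ne, map_eq_zero]; exact hc
  obtain ⟨a, ha, ha0⟩ := isU_C_inv (A := A) (k := k) hk (by
    rintro ⟨b, hb⟩
    apply hx
    have h1 : (x : LaurentSeries K) = HahnSeries.C (algebraMap A K b) *
        (HahnSeries.C c * (x : LaurentSeries K)) := by
      rw [hb, ← mul_assoc, ← map_mul, inv_mul_cancel₀ hc, map_one, one_mul]
    rw [h1]
    exact mul_mem (const_mem_WL b) hu.1)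
  obtain ⟨h2, h3⟩ := hu.inv
  have h4 : (x : LaurentSeries K)⁻¹ = HahnSeries.C (algebraMap A K a) *
      (HahnSeries.C c * (x : LaurentSeries K))⁻¹ := by
    rw [ha, mul_inv, ← mul_assoc, mul_inv_cancel₀ hC, one_mul]
  have h5 : (x : LaurentSeries K)⁻¹ ∈ WL A K k := by
    rw [h4]
    exact mul_mem (const_mem_WL a) h2
  refine ⟨h5, ?_⟩
  have h6 : (⟨_, h5⟩ : WL A K k) = ⟨_, const_mem_WL a⟩ * ⟨_, h2⟩ := Subtype.ext h4
  rw [h6, map_mul, πL_const, ha0, map_zero, zero_mul]

include hco hM in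
/-- **the reductions of functions of level `q M` at the cusp `∞` have level `M`** -/
theorem red_mem (hk : Function.Surjective (algebraMap A k)) (x : FF K (q * M))
    (h1 : (x : LaurentSeries K) ∈ WL A K k) : πL A K k ⟨x, h1⟩ ∈ FF k M := by
  by_cases h2 : (w K hco x : LaurentSeries K) ∈ WL A K k
  · exact (mem_of_WW hco hM hk x h1 h2).1
  obtain ⟨h3, h4⟩ := inv_mem_of_not_mem (A := A) hco hM hk h2
  by_cases h5 : (1 : LaurentSeries k) + πL A K k ⟨x, h1⟩ = 0
  · have : πL A K k ⟨x, h1⟩ = -1 := by linear_combination h5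
    rw [this]
    exact neg_mem (one_mem _)
  have hone : (1 : LaurentSeries K) ∈ WL A K k := one_mem _
  -- `1 + x` and its inverse
  have hx1 : (1 : LaurentSeries K) + (x : LaurentSeries K) ∈ WL A K k := add_mem hone h1
  have e1 : πL A K k ⟨_, hx1⟩ = 1 + πL A K k ⟨x, h1⟩ := by
    have : (⟨_, hx1⟩ : WL A K k) = 1 + ⟨x, h1⟩ := rfl
    rw [this, map_add, map_one]
  have hU : IsU A K k ((1 : LaurentSeries K) + (x : LaurentSeries K)) := ⟨hx1, by rwa [e1]⟩
  have hw0 : (w K hco x : LaurentSeries K) ≠ 0 := by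
    intro h0
    apply h2
    rw [h0]
    exact zero_mem _
  have hy1 : (1 : LaurentSeries K) + (w K hco x : LaurentSeries K)⁻¹ ∈ WL A K k := add_mem hone h3
  have e2 : πL A K k ⟨_, hy1⟩ = 1 := by
    have : (⟨_, hy1⟩ : WL A K k) = 1 + ⟨_, h3⟩ := rfl
    rw [this, map_add, map_one, h4, add_zero]
  have hV : IsU A K k ((1 : LaurentSeries K) + (w K hco x : LaurentSeries K)⁻¹) :=
    ⟨hy1, by rw [e2]; exact one_ne_zero⟩
  have c1 : (((1 + x)⁻¹ : FF K (q * M)) : LaurentSeries K) =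
      ((1 : LaurentSeries K) + (x : LaurentSeries K))⁻¹ := rfl
  have hwadd : w K hco (1 + x) = 1 + w K hco x := by
    have := (w K hco).toRingEquiv.toRingHom.map_add 1 x
    change w K hco (1 + x) = w K hco 1 + w K hco x at this
    rw [this, map_one]
  have c2 : ((w K hco (1 + x)⁻¹ : FF K (q * M)) : LaurentSeries K) =
      (w K hco x : LaurentSeries K)⁻¹ *
        ((1 : LaurentSeries K) + (w K hco x : LaurentSeries K)⁻¹)⁻¹ := by
    rw [map_inv₀, hwadd]
    change ((1 : LaurentSeries K) + (w K hco x : LaurentSeries K))⁻¹ = _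
    rw [← mul_inv, mul_add, mul_one, mul_inv_cancel₀ hw0, add_comm]
  have m1 : (((1 + x)⁻¹ : FF K (q * M)) : LaurentSeries K) ∈ WL A K k := by
    rw [c1]; exact hU.inv.1
  have m2 : ((w K hco (1 + x)⁻¹ : FF K (q * M)) : LaurentSeries K) ∈ WL A K k := by
    rw [c2]; exact mul_mem h3 hV.inv.1
  have h6 := (mem_of_WW hco hM hk (1 + x)⁻¹ m1 m2).1
  have h7 : πL A K k ⟨_, m1⟩ = (1 + πL A K k ⟨x, h1⟩)⁻¹ := by
    rw [← e1, ← πL_inv hx1 hU.inv.1 hU.ne_zero]
    rfl
  rw [h7] at h6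
  have h8 := inv_mem h6
  rw [inv_inv] at h8
  have h9 := sub_mem h8 (one_mem (FF k M))
  rwa [add_sub_cancel_left] at h9

end Comp

end Main

end Fermat.Agent.SemiSt
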